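import Mathlib
import Fermat.Agent.Val.DeuringEquivariant
import Fermat.Agent.Val.GaussGalois
import Fermat.Agent.Jac.Spec.RedPic0
import Fermat.Agent.Jac.Spec.CorrRed
import Fermat.Agent.Jac.RedHecke
import Fermat.Agent.Jac.GaussQExpand

/-!
# Programme III (J1-PORT, Red): semilinear equivariance of `redPic0`, series-level compatibility,
coefficientwise Galois action — all generic

* **(B1)** `redPic0_semilinear_smul` : for any `Red.RedSetup R` (Riemann packages on both sides) and
  semilinear automorphisms `g` of `F/K`, `gt` of `Ft/k` with `g O ⊆ O` and `res ∘ g = gt ∘ res`: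
  `redPic0 R (g • x) = gt • redPic0 R x`.
* **(B2)** `resCompat_of_series` : Gauss constant reductions of subfields of `L((q))`; algebra maps
  `φ`, `φt` given on series by a pair `(ΦL, Φk)` of ring endomorphisms of `L((q))`, `k((q))`
  preserving the Gauss ring and commuting with the Gauss residue are `Jac.Spec.ResCompat`;
  instances `resCompat_of_coe_eq` (inclusions) and `resCompat_of_coe_eq_qExpand` (`q ↦ q^ℓ`), in any
  characteristic.
* **(B3)** `CoeffStable Ft`, `coeffAut Ft h : (k ≃+* k) →* SemilinearAut k Ft` (coefficientwise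
  action on a stable subfield of `k((q))`), and for a Gauss constant reduction `S` of
  `laurentBaseChange L F₀` onto `Ft`, `σ : L ≃ₐ[ℚ] L`, `τ : k ≃+* k` with `GaussCompat A π σ τ`:
  `arithmeticGalois_smul_mem`, `res_arithmeticGalois_smul`; hence
  `redPic0_arithmeticGalois_smul : redPic0 R (arithmeticGalois F₀ σ • x) = coeffAut Ft h τ • redPic0 R x`.
-/

set_option autoImplicit false

namespace Fermat.Agent.DS.J1Spec

open ModularCurve AlgebraicCurve Fermat.Agent Fermat.Agent.Val Fermat.Agent.Red
  Fermat.Agent.Jac.RedHecke Fermat.Agent.Jac.Spec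

/-! ### (B1) semilinear automorphisms -/

section B1

variable {K F k Ft : Type*} [Field K] [Field F] [Algebra K F] [Field k] [Field Ft] [Algebra k Ft]
  {A : ValuationSubring K} {π : A →+* k} (R : Red.RedSetup (F := F) (Ft := Ft) A π)

/-- The place map of a `RedSetup` conserves principal divisors (`Val.ConstRed.Conserves`). -/
theorem conserves_r : R.toConstRed.Conserves R.r :=
  fun y hy D hD Q => R.conservation y hy D hD Q

/-- **(B1)** `redPic0 R` intertwines compatible semilinear automorphisms. -/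
theorem redPic0_semilinear_smul (hπs : Function.Surjective π) (hF : RiemannPkg K F)
    (hFt : RiemannPkg k Ft) (g : SemilinearAut K F) (gt : SemilinearAut k Ft)
    (hO : ∀ x : F, x ∈ R.O → g • x ∈ R.O)
    (hres : ∀ x : R.O, R.res ⟨g • (x : F), hO x x.2⟩ = gt • R.res x) (x : Pic0 K F) :
    redPic0 R (g • x) = gt • redPic0 R x := by
  obtain ⟨D, rfl⟩ := Pic0.mk_surjective x
  rw [SemilinearAut.pic0_smul_mk, redPic0_mk, redPic0_mk, SemilinearAut.pic0_smul_mk]
  congr 1
  apply Subtype.ext
  rw [coe_redDegZero, SemilinearAut.coe_degZeroSMulHom, SemilinearAut.coe_degZeroSMulHom,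
    coe_redDegZero]
  exact R.toConstRed.mapDomain_smul_divisor hπs hF hFt (conserves_r R) g gt hO hres D

/-- **(B1')** the same for `K`-algebra automorphisms compatible with the reduction
(`Jac.Spec.ResCompat`), acting through `SemilinearAut.ofAlgAut` (diamond operators). -/
theorem redPic0_ofAlgAut_smul (hπs : Function.Surjective π) (hF : RiemannPkg K F)
    (hFt : RiemannPkg k Ft) (σ : F ≃ₐ[K] F) (σt : Ft ≃ₐ[k] Ft)
    (hσ : ResCompat R R.toConstRed (σ : F →ₐ[K] F) (σt : Ft →ₐ[k] Ft)) (x : Pic0 K F) :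
    redPic0 R (SemilinearAut.ofAlgAut σ • x) = SemilinearAut.ofAlgAut σt • redPic0 R x :=
  redPic0_semilinear_smul R hπs hF hFt (SemilinearAut.ofAlgAut σ) (SemilinearAut.ofAlgAut σt)
    (fun x hx => hσ.mem x hx) (fun x => hσ.res x x.2) x

end B1

/-! ### (B2) maps given on series -/

section B2

variable {L : Type*} [Field L] {A : ValuationSubring L} {k : Type*} [Field k] {π : A →+* k}
  {F F' : IntermediateField L (LaurentSeries L)} {Ft Ft' : IntermediateField k (LaurentSeries k)}
  (R : Red.RedSetup (F := F) (Ft := Ft) A π) (hR : IsGauss R.toConstRed)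
  (S' : ConstRed (F := F') (Ft := Ft') A π) (hS' : IsGauss S')
  (φ : F →ₐ[L] F') (φt : Ft →ₐ[k] Ft')

include hR hS' in
/-- **(B2)** maps given on series by Gauss-compatible endomorphisms of `L((q))`, `k((q))`. -/
theorem resCompat_of_series (ΦL : LaurentSeries L →+* LaurentSeries L)
    (Φk : LaurentSeries k →+* LaurentSeries k)
    (hΦ : ∀ (x : LaurentSeries L) (hx : x ∈ gaussRingA A π),
      ∃ h : ΦL x ∈ gaussRingA A π, gaussResA A π ⟨ΦL x, h⟩ = Φk (gaussResA A π ⟨x, hx⟩))
    (hφ : ∀ y : F, ((φ y : F') : LaurentSeries L) = ΦL (y : LaurentSeries L))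
    (hφt : ∀ z : Ft, ((φt z : Ft') : LaurentSeries k) = Φk (z : LaurentSeries k)) :
    ResCompat R S' φ φt := by
  have hmem : ∀ y : F, y ∈ R.O → φ y ∈ S'.O := by
    intro y hy
    have h1 : (y : LaurentSeries L) ∈ gaussRingA A π := (hR.mem_iff y).mp hy
    obtain ⟨h2, -⟩ := hΦ _ h1
    exact (hS'.mem_iff _).mpr (by rw [hφ]; exact h2)
  refine ⟨hmem, fun y hy => ?_⟩
  apply Subtype.ext
  have h1 : (y : LaurentSeries L) ∈ gaussRingA A π := (hR.mem_iff y).mp hy
  obtain ⟨h2, h3⟩ := hΦ _ h1
  have h4 : ((φ y : F') : LaurentSeries L) ∈ gaussRingA A π := by rw [hφ]; exact h2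
  have e : (⟨((φ y : F') : LaurentSeries L), h4⟩ : gaussRingA A π) =
      ⟨ΦL (y : LaurentSeries L), h2⟩ := Subtype.ext (hφ y)
  rw [hS'.res_eq ⟨φ y, hmem y hy⟩ h4, hφt, e, h3]
  congr 1
  exact (hR.res_eq ⟨y, hy⟩ h1).symm

include hR hS' in
/-- inclusions (`α`) -/
theorem resCompat_of_coe_eq
    (hφ : ∀ y : F, ((φ y : F') : LaurentSeries L) = (y : LaurentSeries L))
    (hφt : ∀ z : Ft, ((φt z : Ft') : LaurentSeries k) = (z : LaurentSeries k)) :
    ResCompat R S' φ φt :=
  resCompat_of_series R hR S' hS' φ φt (RingHom.id _) (RingHom.id _)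
    (fun _ hx => ⟨hx, rfl⟩) hφ hφt

include hR hS' in
/-- `q ↦ q^ℓ` (`β`) -/
theorem resCompat_of_coe_eq_qExpand (ℓ : ℕ) [NeZero ℓ]
    (hφ : ∀ y : F, ((φ y : F') : LaurentSeries L) = qExpand L ℓ (y : LaurentSeries L))
    (hφt : ∀ z : Ft, ((φt z : Ft') : LaurentSeries k) = qExpand k ℓ (z : LaurentSeries k)) :
    ResCompat R S' φ φt :=
  resCompat_of_series R hR S' hS' φ φt (qExpand L ℓ) (qExpand k ℓ)
    (fun x hx => ⟨Jac.RedHecke.qExpand_mem_gaussRingA A π ℓ hx, Jac.RedHecke.gaussResA_qExpand A π ℓ ⟨x, hx⟩⟩)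
    hφ hφt

end B2

/-! ### (B3) the coefficientwise action -/

section CoeffAut

variable {k : Type*} [Field k] (Ft : IntermediateField k (LaurentSeries k))

/-- `Ft ⊆ k((q))` is stable under the coefficientwise action of the ring endomorphisms of `k`. -/
def CoeffStable : Prop :=
  ∀ (τ : k →+* k) (x : LaurentSeries k), x ∈ Ft → coeffMap τ x ∈ Ft

/-- A field generated by series fixed by all coefficientwise endomorphisms is stable. -/
theorem coeffStable_adjoin (S : Set (LaurentSeries k))
    (hS : ∀ (τ : k →+* k), ∀ x ∈ S, coeffMap τ x = x) :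
    CoeffStable (IntermediateField.adjoin k S) := by
  intro τ x hx
  let T : IntermediateField k (LaurentSeries k) :=
    ((IntermediateField.adjoin k S).toSubfield.comap (coeffMap τ)).toIntermediateField fun c => by
      show coeffMap τ (algebraMap k (LaurentSeries k) c) ∈ IntermediateField.adjoin k S
      rw [coeffMap_algebraMap]
      exact IntermediateField.algebraMap_mem _ _
  have hle : IntermediateField.adjoin k S ≤ T := by
    rw [IntermediateField.adjoin_le_iff]
    intro y hy
    show coeffMap τ y ∈ IntermediateField.adjoin k S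
    rw [hS τ y hy]
    exact IntermediateField.subset_adjoin k S hy
  exact hle hx

variable {Ft} (h : CoeffStable Ft)

/-- the coefficientwise ring automorphism of `Ft` attached to an automorphism of `k` -/
noncomputable def coeffRingAut (τ : k ≃+* k) : Ft ≃+* Ft where
  toFun x := ⟨coeffMap (τ : k →+* k) (x : LaurentSeries k), h _ _ x.2⟩
  invFun x := ⟨coeffMap (τ.symm : k →+* k) (x : LaurentSeries k), h _ _ x.2⟩
  left_inv x := Subtype.ext <| by
    show coeffMap (τ.symm : k →+* k) (coeffMap (τ : k →+* k) (x : LaurentSeries k)) = _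
    rw [coeffMap_coeffMap,
      coeffMap_congr (g := RingHom.id k) (RingHom.ext fun a => τ.symm_apply_apply a), coeffMap_id]
  right_inv x := Subtype.ext <| by
    show coeffMap (τ : k →+* k) (coeffMap (τ.symm : k →+* k) (x : LaurentSeries k)) = _
    rw [coeffMap_coeffMap,
      coeffMap_congr (g := RingHom.id k) (RingHom.ext fun a => τ.apply_symm_apply a), coeffMap_id]
  map_mul' x y := Subtype.ext (map_mul (coeffMap (τ : k →+* k)) _ _)
  map_add' x y := Subtype.ext (map_add (coeffMap (τ : k →+* k)) _ _)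

@[simp] theorem coe_coeffRingAut_apply (τ : k ≃+* k) (x : Ft) :
    ((coeffRingAut h τ x : Ft) : LaurentSeries k) =
      coeffMap (τ : k →+* k) (x : LaurentSeries k) := rfl

theorem coeffRingAut_algebraMap (τ : k ≃+* k) (a : k) :
    coeffRingAut h τ (algebraMap k Ft a) = algebraMap k Ft (τ a) :=
  Subtype.ext (coeffMap_algebraMap (τ : k →+* k) a)

/-- **The coefficientwise action** of `Aut(k)` on `Ft` by semilinear automorphisms. -/
noncomputable def coeffAut : (k ≃+* k) →* SemilinearAut k Ft where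
  toFun τ := ⟨(coeffRingAut h τ, τ), fun a => coeffRingAut_algebraMap h τ a⟩
  map_one' := by
    refine Subtype.ext (Prod.ext (RingEquiv.ext fun x => Subtype.ext ?_) rfl)
    show coeffMap (((1 : k ≃+* k)) : k →+* k) (x : LaurentSeries k) = (x : LaurentSeries k)
    rw [show (((1 : k ≃+* k)) : k →+* k) = RingHom.id k from RingHom.ext fun _ => rfl, coeffMap_id]
  map_mul' σ τ := by
    refine Subtype.ext (Prod.ext (RingEquiv.ext fun x => Subtype.ext ?_) rfl)
    show coeffMap ((σ * τ : k ≃+* k) : k →+* k) (x : LaurentSeries k) =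
      coeffMap (σ : k →+* k) (coeffMap (τ : k →+* k) (x : LaurentSeries k))
    rw [coeffMap_coeffMap]
    exact coeffMap_congr (RingHom.ext fun _ => rfl) _

@[simp] theorem toRingAut_coeffAut (τ : k ≃+* k) :
    SemilinearAut.toRingAut (coeffAut h τ) = coeffRingAut h τ := rfl

@[simp] theorem baseAut_coeffAut (τ : k ≃+* k) :
    SemilinearAut.baseAut (coeffAut h τ) = τ := rfl

theorem coe_coeffAut_smul (τ : k ≃+* k) (x : Ft) :
    ((coeffAut h τ • x : Ft) : LaurentSeries k) =
      coeffMap (τ : k →+* k) (x : LaurentSeries k) := rfl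

end CoeffAut

section Galois

variable {L : Type*} [Field L] [Algebra ℚ L] {A : ValuationSubring L} {k : Type*} [Field k]
  {π : A →+* k} (F₀ : IntermediateField ℚ (LaurentSeries ℚ))
  {Ft : IntermediateField k (LaurentSeries k)} (hst : CoeffStable Ft)
  (S : ConstRed (F := laurentBaseChange L F₀) (Ft := Ft) A π) (hS : IsGauss S)
  {σ : L ≃ₐ[ℚ] L} {τ : k ≃+* k} (hc : GaussCompat A π (σ : L →+* L) (τ : k →+* k))

include hS hc in
/-- **(B3a)** a Gauss-compatible automorphism of the constants preserves the valuation ring. -/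
theorem arithmeticGalois_smul_mem (x : laurentBaseChange L F₀) (hx : x ∈ S.O) :
    arithmeticGalois F₀ σ • x ∈ S.O := by
  have h1 : (x : LaurentSeries L) ∈ gaussRingA A π := (hS.mem_iff x).mp hx
  exact (hS.mem_iff _).mpr (hc.coeffMap_mem_gaussRingA h1)

include hS hc in
/-- **(B3b)** the residue map intertwines it with the coefficientwise action of `τ`. -/
theorem res_arithmeticGalois_smul (x : S.O) :
    S.res ⟨arithmeticGalois F₀ σ • (x : laurentBaseChange L F₀),
        arithmeticGalois_smul_mem F₀ S hS hc x x.2⟩ = coeffAut hst τ • S.res x := by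
  apply Subtype.ext
  have h1 : ((x : laurentBaseChange L F₀) : LaurentSeries L) ∈ gaussRingA A π :=
    (hS.mem_iff _).mp x.2
  have h2 : ((arithmeticGalois F₀ σ • (x : laurentBaseChange L F₀) : laurentBaseChange L F₀) :
      LaurentSeries L) ∈ gaussRingA A π := hc.coeffMap_mem_gaussRingA h1
  rw [hS.res_eq ⟨_, arithmeticGalois_smul_mem F₀ S hS hc x x.2⟩ h2, coe_coeffAut_smul,
    hS.res_eq x h1]
  exact hc.gaussResA_coeffMap ⟨_, h1⟩

end Galois

section GaloisPic

variable {L : Type*} [Field L] [Algebra ℚ L] {A : ValuationSubring L} {k : Type*} [Field k]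
  {π : A →+* k} (F₀ : IntermediateField ℚ (LaurentSeries ℚ))
  {Ft : IntermediateField k (LaurentSeries k)} (hst : CoeffStable Ft)
  (R : Red.RedSetup (F := laurentBaseChange L F₀) (Ft := Ft) A π) (hR : IsGauss R.toConstRed)
  {σ : L ≃ₐ[ℚ] L} {τ : k ≃+* k} (hc : GaussCompat A π (σ : L →+* L) (τ : k →+* k))

include hR hc in
/-- **(B3)** Galois equivariance of the reduction map on `Pic⁰`. -/
theorem redPic0_arithmeticGalois_smul (hπs : Function.Surjective π)
    (hF : RiemannPkg L (laurentBaseChange L F₀)) (hFt : RiemannPkg k Ft)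
    (x : Pic0 L (laurentBaseChange L F₀)) :
    redPic0 R (arithmeticGalois F₀ σ • x) = coeffAut hst τ • redPic0 R x :=
  redPic0_semilinear_smul R hπs hF hFt (arithmeticGalois F₀ σ) (coeffAut hst τ)
    (fun x hx => arithmeticGalois_smul_mem F₀ R.toConstRed hR hc x hx)
    (fun x => res_arithmeticGalois_smul F₀ hst R.toConstRed hR hc x) x

end GaloisPic

end Fermat.Agent.DS.J1Spec
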