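import Mathlib
import Fermat.Agent.DS.J1Spec.Semilinear

/-!
# Programme III (J1-PORT, Red): decomposition group, inertia and Frobenius on the reduction map

`F₀ ⊆ ℚ((q))` arbitrary, `L/ℚ` a field (`L = ℚ̄`), `A` a valuation subring of `L` with residue field
`k = ResidueField A`, `Ft ⊆ k((q))` coefficientwise stable, `R` a Gauss `Red.RedSetup` of
`laurentBaseChange L F₀` onto `Ft` along `(A, residue A)`.  With the Prelude's coefficientwise
action of `Gal(L/ℚ)` on `Pic⁰(laurentBaseChange L F₀)`:

* `redPic0_decomposition_smul` : `red (σ • x) = coeffAut (decompResAut σ) • red x` for `σ` in the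
  decomposition group of `A`;
* `redPic0_inertia_smul` : `red (σ • x) = red x` for `σ` in the inertia group;
* `redPic0_frobenius_smul` : for a Frobenius element `σ` at `A` (`q`-power on the residue field),
  `red (σ • x) = coeffAut φ • red x` for every `φ : k ≃+* k` with `φ y = y ^ q`;
* `coeffAut_symm_smul_smul` : `coeffAut φ⁻¹ • coeffAut φ • y = y`.
-/

set_option autoImplicit false

namespace Fermat.Agent.DS.J1Spec

open ModularCurve AlgebraicCurve IsLocalRing Fermat.Agent Fermat.Agent.Val Fermat.Agent.Red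
  Fermat.Agent.Jac.RedHecke Fermat.Agent.Jac.Spec

variable {L : Type*} [Field L] [Algebra ℚ L] {A : ValuationSubring L}
  (F₀ : IntermediateField ℚ (LaurentSeries ℚ))
  {Ft : IntermediateField (ResidueField A) (LaurentSeries (ResidueField A))}
  (hst : CoeffStable Ft)
  (R : Red.RedSetup (F := laurentBaseChange L F₀) (Ft := Ft) A (residue A))
  (hR : IsGauss R.toConstRed)
  (hF : RiemannPkg L (laurentBaseChange L F₀)) (hFt : RiemannPkg (ResidueField A) Ft)
  {σ : L ≃ₐ[ℚ] L}

include hR hF hFt in
/-- **Decomposition group.** -/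
theorem redPic0_decomposition_smul (hσ : σ ∈ A.decompositionSubgroup ℚ)
    (x : Pic0 L (laurentBaseChange L F₀)) :
    redPic0 R (σ • x) = coeffAut hst (decompResAut A ⟨σ, hσ⟩) • redPic0 R x := by
  rw [galois_smul_pic0_def]
  exact redPic0_arithmeticGalois_smul F₀ hst R hR
    (gaussCompat_of_mem_decompositionSubgroup hσ) residue_surjective hF hFt x

include hR hF hFt hst in
/-- **Inertia acts trivially after reduction.** -/
theorem redPic0_inertia_smul (hσ : σ ∈ A.inertiaSubgroupIn ℚ)
    (x : Pic0 L (laurentBaseChange L F₀)) : redPic0 R (σ • x) = redPic0 R x := by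
  have hσ' := mem_decomposition_of_mem_inertiaIn hσ
  rw [redPic0_decomposition_smul F₀ hst R hR hF hFt hσ' x,
    decompResAut_of_mem_inertiaSubgroupIn hσ hσ']
  have : (RingEquiv.refl (ResidueField A)) = (1 : ResidueField A ≃+* ResidueField A) := rfl
  rw [this, map_one, one_smul]

include hR hF hFt in
/-- **Frobenius.** -/
theorem redPic0_frobenius_smul {q : ℕ} (hσ : A.IsFrobeniusAt σ q)
    (φ : ResidueField A ≃+* ResidueField A) (hφ : ∀ y, φ y = y ^ q)
    (x : Pic0 L (laurentBaseChange L F₀)) :
    redPic0 R (σ • x) = coeffAut hst φ • redPic0 R x := by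
  have hσ' := hσ.mem_decompositionSubgroup
  rw [redPic0_decomposition_smul F₀ hst R hR hF hFt hσ' x]
  have : decompResAut A ⟨σ, hσ'⟩ = φ :=
    RingEquiv.ext fun y => (decompResAut_of_isFrobeniusAt hσ hσ' y).trans (hφ y).symm
  rw [this]

omit [Algebra ℚ L] in
/-- `Φ⁻¹ ∘ Φ = id` for the coefficientwise action on `Pic⁰`. -/
theorem coeffAut_symm_smul_smul (φ : ResidueField A ≃+* ResidueField A)
    (y : Pic0 (ResidueField A) Ft) : coeffAut hst φ.symm • coeffAut hst φ • y = y := by
  have h : (φ.symm : ResidueField A ≃+* ResidueField A) * φ = 1 :=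
    RingEquiv.ext fun a => φ.symm_apply_apply a
  rw [← mul_smul, ← map_mul, h, map_one, one_smul]

end Fermat.Agent.DS.J1Spec
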