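import Mathlib
import Fermat.Agent.Val.ConstRed
import Fermat.Agent.Val.GaussUnique
import Fermat.Agent.Val.OrthoRedSetup
import Fermat.Agent.Jac.Spec.CorrRed

/-!
# Programme III (J1-PORT, Red): automorphisms of the generic fibre induce automorphisms of the
special fibre (diamond operators modulo `p`)

* `exists_residue_algEquiv` : `S : Val.ConstRed` of `F/K` onto `Ft/k` (`π` surjective), `σ : F ≃ₐ[K] F`
  with `σ y ∈ S.O ↔ y ∈ S.O`.  Then there is `σt : Ft ≃ₐ[k] Ft` with `res (σ y) = σt (res y)`.
* `OrthoData.algEquiv_mem_valSubring_iff` : for orthonormal data `D` of `F ⊆ L((q))`, an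
  `L`-automorphism `σ` of `F` with `σ x = x` preserves the Gauss valuation ring (uniqueness of the
  Gauss extension, `Val.OrthoData.map_mem_valSubring_iff`).
* `exists_resCompat_of_fix` : consequently for a `Red.RedSetup R` with `R.toConstRed = D.constRed`
  there is `σt` with `Jac.Spec.ResCompat R R.toConstRed σ σt`.
-/

set_option autoImplicit false

namespace Fermat.Agent.DS.J1Spec

open AlgebraicCurve Fermat.Agent Fermat.Agent.Val Polynomial IntermediateField

section Abstract

variable {K F k Ft : Type*} [Field K] [Field F] [Algebra K F] [Field k] [Field Ft] [Algebra k Ft]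
  {A : ValuationSubring K} {π : A →+* k} (S : ConstRed (F := F) (Ft := Ft) A π)
  (σ : F ≃ₐ[K] F) (hσ : ∀ y : F, σ y ∈ S.O ↔ y ∈ S.O)

/-- the restriction of `σ` to the valuation ring -/
def restrictO : S.O →+* S.O where
  toFun y := ⟨σ (y : F), (hσ _).mpr y.2⟩
  map_one' := Subtype.ext (map_one σ)
  map_mul' a b := Subtype.ext (map_mul σ (a : F) (b : F))
  map_zero' := Subtype.ext (map_zero σ)
  map_add' a b := Subtype.ext (map_add σ (a : F) (b : F))

@[simp] theorem coe_restrictO (y : S.O) : ((restrictO S σ hσ y : S.O) : F) = σ (y : F) := rfl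

include hσ in
theorem hσ_symm (y : F) : σ.symm y ∈ S.O ↔ y ∈ S.O := by
  have := hσ (σ.symm y)
  rw [σ.apply_symm_apply] at this
  exact this.symm

/-- `σ` maps non-units of `O` to non-units. -/
theorem not_isUnit_restrictO (y : S.O) (hy : ¬ IsUnit y) : ¬ IsUnit (restrictO S σ hσ y) := by
  intro hu
  apply hy
  obtain ⟨v, hv⟩ := hu.exists_right_inv
  refine IsUnit.of_mul_eq_one (⟨σ.symm (v : F), (hσ_symm S σ hσ _).mpr v.2⟩ : S.O) ?_
  apply Subtype.ext
  have h1 : σ (y : F) * (v : F) = 1 := congrArg Subtype.val hv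
  show (y : F) * σ.symm (v : F) = 1
  have h2 := congrArg σ.symm h1
  rw [map_mul, σ.symm_apply_apply, map_one] at h2
  exact h2

theorem ker_res_le :
    RingHom.ker S.res ≤ RingHom.ker (S.res.comp (restrictO S σ hσ)) := by
  intro y hy
  rw [RingHom.mem_ker] at hy ⊢
  rw [RingHom.comp_apply, S.res_eq_zero_iff]
  exact not_isUnit_restrictO S σ hσ y ((S.res_eq_zero_iff y).mp hy)

/-- the induced endomorphism of the residue field -/
noncomputable def residueHom : Ft →+* Ft :=
  RingHom.liftOfSurjective S.res S.res_surjective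
    ⟨S.res.comp (restrictO S σ hσ), ker_res_le S σ hσ⟩

theorem residueHom_res (y : S.O) :
    residueHom S σ hσ (S.res y) = S.res (restrictO S σ hσ y) :=
  RingHom.liftOfSurjective_comp_apply S.res S.res_surjective _ y

/-- the induced automorphism of the residue field, as a ring equivalence -/
noncomputable def residueRingEquiv : Ft ≃+* Ft :=
  RingEquiv.ofRingHom (residueHom S σ hσ) (residueHom S σ.symm (hσ_symm S σ hσ))
    (by
      ext z
      obtain ⟨y, rfl⟩ := S.res_surjective z
      rw [RingHom.comp_apply, residueHom_res, residueHom_res, RingHom.id_apply]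
      congr 1
      exact Subtype.ext (σ.apply_symm_apply _))
    (by
      ext z
      obtain ⟨y, rfl⟩ := S.res_surjective z
      rw [RingHom.comp_apply, residueHom_res, residueHom_res, RingHom.id_apply]
      congr 1
      exact Subtype.ext (σ.symm_apply_apply _))

theorem residueRingEquiv_res (y : S.O) :
    residueRingEquiv S σ hσ (S.res y) = S.res (restrictO S σ hσ y) :=
  residueHom_res S σ hσ y

include hσ in
/-- **An automorphism preserving the valuation ring induces an automorphism of the residue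
function field.** -/
theorem exists_residue_algEquiv (hπs : Function.Surjective π) :
    ∃ σt : Ft ≃ₐ[k] Ft, ∀ (y : F) (hy : y ∈ S.O),
      S.res ⟨σ y, (hσ y).mpr hy⟩ = σt (S.res ⟨y, hy⟩) := by
  have hcomm : ∀ c : k, residueRingEquiv S σ hσ (algebraMap k Ft c) = algebraMap k Ft c := by
    intro c
    obtain ⟨a, rfl⟩ := hπs c
    have ha' : algebraMap K F (a : K) ∈ S.O := (S.algebraMap_mem_iff _).mpr a.2
    have h1 : S.res ⟨algebraMap K F (a : K), ha'⟩ = algebraMap k Ft (π a) :=
      S.res_algebraMap (a : K) a.2 ha'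
    rw [← h1, residueRingEquiv_res]
    congr 1
    exact Subtype.ext (σ.commutes _)
  refine ⟨AlgEquiv.ofRingEquiv (f := residueRingEquiv S σ hσ) hcomm, fun y hy => ?_⟩
  exact (residueRingEquiv_res S σ hσ ⟨y, hy⟩).symm

end Abstract

section Gauss

variable {L : Type*} [Field L] {A : ValuationSubring L} {k : Type*} [Field k] {π : A →+* k}
  {F : IntermediateField L (LaurentSeries L)} {Ft : IntermediateField k (LaurentSeries k)}
  {n : ℕ} (D : OrthoData A π F Ft n)
  (hπ : ∀ a : A, a ∈ IsLocalRing.maximalIdeal A → π a = 0)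

/-- an `L`-automorphism fixing `x` fixes `L(x)` pointwise -/
theorem algEquiv_fix_adjoin_simple (σ : F ≃ₐ[L] F) {x : F} (hx : σ x = x) (a : L⟮x⟯) :
    σ (a : F) = (a : F) := by
  obtain ⟨r, s, hrs⟩ := (IntermediateField.mem_adjoin_simple_iff L (a : F)).mp a.2
  have h : ∀ p : L[X], σ (aeval x p) = aeval x p := fun p => by
    have h1 := Polynomial.aeval_algHom_apply (σ : F →ₐ[L] F) x p
    have h2 : (σ : F →ₐ[L] F) x = x := hx
    rw [h2] at h1
    exact h1.symm
  rw [hrs, map_div₀, h, h]

include hπ in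
/-- **An `L`-automorphism fixing `x` preserves the Gauss valuation ring.** -/
theorem algEquiv_mem_valSubring_iff (σ : F ≃ₐ[L] F) (hx : σ D.xF = D.xF) (f : F) :
    σ f ∈ D.valSubring ↔ f ∈ D.valSubring :=
  D.map_mem_valSubring_iff hπ (σ : F ≃+* F) (RingEquiv.refl _)
    (fun a => algEquiv_fix_adjoin_simple σ hx a) (fun _ => Iff.rfl) f

include hπ in
/-- **Diamond operators modulo `p`**: an `L`-automorphism of `F` fixing `x` is compatible with the
Gauss reduction, for the induced automorphism of the residue function field. -/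
theorem exists_resCompat_of_fix (hπs : Function.Surjective π)
    (R : Red.RedSetup (F := F) (Ft := Ft) A π) (hR : R.toConstRed = D.constRed hπ hπs)
    (σ : F ≃ₐ[L] F) (hx : σ D.xF = D.xF) :
    ∃ σt : Ft ≃ₐ[k] Ft,
      Jac.Spec.ResCompat R R.toConstRed (σ : F →ₐ[L] F) (σt : Ft →ₐ[k] Ft) := by
  have hσ : ∀ y : F, σ y ∈ R.toConstRed.O ↔ y ∈ R.toConstRed.O := by
    rw [hR]
    exact fun y => algEquiv_mem_valSubring_iff D hπ σ hx y
  obtain ⟨σt, hσt⟩ := exists_residue_algEquiv R.toConstRed σ hσ hπs
  exact ⟨σt, fun y hy => (hσ y).mpr hy, fun y hy => hσt y hy⟩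

end Gauss

end Fermat.Agent.DS.J1Spec
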