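import Mathlib
import Fermat.Agent.Val.Ortho
import Fermat.Agent.Val.OrthoRedSetup
import Fermat.Agent.Jac.DescentLaurentExt
import Fermat.Agent.Igusa.TowerCor
import Fermat.Agent.FF.PlacesCoord

/-!
# Programme III (J1-PORT, Spec): orthonormal data for ANY function field `F₀ ⊆ ℚ((q))` in
equicharacteristic zero

`F₀ : IntermediateField ℚ (LaurentSeries ℚ)` arbitrary; `A` a valuation subring of a field `L ⊇ ℚ`
with a ring hom `π : A →+* k` killing the maximal ideal, `k ⊇ ℚ`.  Then `ℚ ⊆ A`
(`algebraMap_rat_mem`), every series `f ∈ ℚ((q))` has an `A`-integral avatar `qA f ∈ A((q))` with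
`aIota (qA f) = coeffEmb L f`, `aRed (qA f) = coeffEmb k f`, and

* `exists_qOrthoData` : if `x₀ ∈ F₀` is such that its image is a separating variable of degree `n`
  of `laurentBaseChange k F₀ / k` and `[laurentBaseChange L F₀ : L(x₀)] ≤ n`, there is
  `D : Val.OrthoData A π (laurentBaseChange L F₀) (laurentBaseChange k F₀) n` with `D.x = qA x₀` and
  every `D.m i` of the form `qA f`, `f ∈ F₀` (all data *rational*).
-/

set_option autoImplicit false

namespace Fermat.Agent.DS.J1Spec

open ModularCurve Polynomial IntermediateField Fermat.Agent Fermat.Agent.Val Fermat.Agent.X0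

section Rat

variable {L : Type*} [Field L] [Algebra ℚ L] (A : ValuationSubring L) {k : Type*} [Field k]
  [Algebra ℚ k] (π : A →+* k)

/-- In residue characteristic zero the valuation ring contains `ℚ`. -/
theorem algebraMap_rat_mem (hπ : ∀ a : A, a ∈ IsLocalRing.maximalIdeal A → π a = 0) (r : ℚ) :
    algebraMap ℚ L r ∈ A := by
  have : CharZero k := algebraRat.charZero k
  by_contra hr
  have hr0 : r ≠ 0 := by
    rintro rfl
    exact hr (by rw [map_zero]; exact A.zero_mem)
  have hv : 1 < A.valuation (algebraMap ℚ L r) := by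
    rw [← not_le, A.valuation_le_one_iff]
    exact hr
  have hinv : A.valuation (algebraMap ℚ L r)⁻¹ < 1 := by
    rw [map_inv₀]
    exact inv_lt_one_of_one_lt₀ hv
  have hmem : (algebraMap ℚ L r)⁻¹ ∈ A := (A.valuation_le_one_iff _).mp hinv.le
  have hmax : (⟨(algebraMap ℚ L r)⁻¹, hmem⟩ : A) ∈ IsLocalRing.maximalIdeal A := by
    rw [A.valuation_lt_one_iff]
    exact hinv
  have h0 := hπ _ hmax
  -- `s = r⁻¹ = a / b`, `b * s = a` in `A`
  set s : ℚ := r⁻¹ with hs
  have hs0 : s ≠ 0 := inv_ne_zero hr0
  have hsL : (algebraMap ℚ L r)⁻¹ = algebraMap ℚ L s := by rw [hs, map_inv₀]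
  have hnum : (s.num : ℤ) ≠ 0 := Rat.num_ne_zero.mpr hs0
  have key : ((s.den : ℕ) : A) * (⟨(algebraMap ℚ L r)⁻¹, hmem⟩ : A) = ((s.num : ℤ) : A) := by
    apply Subtype.ext
    push_cast
    rw [hsL]
    have h1 : (s.den : ℚ) * s = (s.num : ℚ) := by
      rw [mul_comm]; exact Rat.mul_den_eq_num s
    have h2 := congrArg (algebraMap ℚ L) h1
    rw [map_mul, map_natCast, map_intCast] at h2
    exact h2
  have h3 := congrArg π key
  rw [map_mul, h0, mul_zero, map_intCast] at h3
  exact hnum (by exact_mod_cast h3.symm)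

variable (hπ : ∀ a : A, a ∈ IsLocalRing.maximalIdeal A → π a = 0)

/-- `ℚ → A`. -/
noncomputable def ratToA : ℚ →+* A :=
  (algebraMap ℚ L).codRestrict A (algebraMap_rat_mem A π hπ)

/-- The `A`-integral avatar of a series with rational coefficients. -/
noncomputable def qA : LaurentSeries ℚ →+* LaurentSeries A :=
  coeffMap (ratToA A π hπ)

theorem aIota_qA (f : LaurentSeries ℚ) : aIota A (qA A π hπ f) = coeffEmb L f := by
  rw [aIota, qA, coeffMap_coeffMap, coeffEmb]
  exact coeffMap_congr (RingHom.ext_rat _ _) f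

theorem aRed_qA (f : LaurentSeries ℚ) : aRed π (qA A π hπ f) = coeffEmb k f := by
  rw [aRed, qA, coeffMap_coeffMap, coeffEmb]
  exact coeffMap_congr (RingHom.ext_rat _ _) f

end Rat

section Emb

variable (L : Type*) [Field L] [Algebra ℚ L] (F₀ : IntermediateField ℚ (LaurentSeries ℚ))

/-- The image of `f ∈ F₀` in `laurentBaseChange L F₀`. -/
noncomputable def emb (f : F₀) : laurentBaseChange L F₀ :=
  ⟨coeffEmb L (f : LaurentSeries ℚ), coeffEmb_mem_laurentBaseChange L f.2⟩

@[simp] theorem coe_emb (f : F₀) :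
    ((emb L F₀ f : laurentBaseChange L F₀) : LaurentSeries L) = coeffEmb L (f : LaurentSeries ℚ) :=
  rfl

theorem emb_mul (f g : F₀) : emb L F₀ (f * g) = emb L F₀ f * emb L F₀ g :=
  Subtype.ext (map_mul (coeffEmb L) _ _)

theorem emb_one : emb L F₀ 1 = 1 := Subtype.ext (map_one (coeffEmb L))

/-- The image of `F₀`, a submonoid of `laurentBaseChange L F₀`. -/
def embSet : Set (laurentBaseChange L F₀) := Set.range (emb L F₀)

theorem closure_embSet : (Submonoid.closure (embSet L F₀) : Set (laurentBaseChange L F₀)) =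
    embSet L F₀ := by
  apply le_antisymm
  · intro y hy
    induction hy using Submonoid.closure_induction with
    | mem x hx => exact hx
    | one => exact ⟨1, emb_one L F₀⟩
    | mul x y _ _ hx hy =>
      obtain ⟨f, rfl⟩ := hx
      obtain ⟨g, rfl⟩ := hy
      exact ⟨f * g, emb_mul L F₀ f g⟩
  · exact Submonoid.subset_closure

/-- `laurentBaseChange L F₀` is generated over `L` by the image of `F₀`. -/
theorem adjoin_embSet_eq_top : IntermediateField.adjoin L (embSet L F₀) = ⊤ := by
  rw [eq_top_iff]
  intro x _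
  set M := IntermediateField.adjoin L (embSet L F₀) with hM
  have h1 : ((x : laurentBaseChange L F₀) : LaurentSeries L) ∈
      M.map (laurentBaseChange L F₀).val := by
    rw [hM, IntermediateField.adjoin_map]
    have h2 : laurentBaseChange L F₀ ≤
        IntermediateField.adjoin L ((laurentBaseChange L F₀).val '' embSet L F₀) := by
      apply IntermediateField.adjoin.mono
      rintro _ ⟨z, hz, rfl⟩
      exact ⟨emb L F₀ ⟨z, hz⟩, ⟨⟨z, hz⟩, rfl⟩, rfl⟩
    exact h2 x.2
  obtain ⟨y, hy, hxy⟩ := (IntermediateField.mem_map M).mp h1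
  have : y = x := Subtype.ext hxy
  rwa [← this]

end Emb

section Ortho

variable {L : Type*} [Field L] [Algebra ℚ L] (A : ValuationSubring L) {k : Type*} [Field k]
  [Algebra ℚ k] (π : A →+* k) (hπ : ∀ a : A, a ∈ IsLocalRing.maximalIdeal A → π a = 0)
  (F₀ : IntermediateField ℚ (LaurentSeries ℚ)) (x₀ : F₀) {n : ℕ}

/-- `laurentBaseChange k F₀` is generated over `k(x)` by the image of `F₀`. -/
theorem adjoin_simple_embSet_eq_top :
    IntermediateField.adjoin k⟮emb k F₀ x₀⟯ (embSet k F₀) = ⊤ := by
  rw [eq_top_iff]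
  intro f _
  have h1 : f ∈ IntermediateField.adjoin k (embSet k F₀) := by
    rw [adjoin_embSet_eq_top]; trivial
  have hle : IntermediateField.adjoin k (embSet k F₀) ≤
      (IntermediateField.adjoin k⟮emb k F₀ x₀⟯ (embSet k F₀)).restrictScalars k :=
    IntermediateField.adjoin_le_iff.mpr fun y hy =>
      IntermediateField.subset_adjoin k⟮emb k F₀ x₀⟯ (embSet k F₀) hy
  exact hle h1

/-- `n` elements of `F₀` whose images are linearly independent over `k(x)`. -/
theorem exists_qMonomials (hk : IsSepVar k (emb k F₀ x₀) n) :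
    ∃ b : Fin n → F₀, LinearIndependent k⟮emb k F₀ x₀⟯ (fun i => emb k F₀ (b i)) := by
  have hfin := hk.finite
  have htop := adjoin_simple_embSet_eq_top (k := k) F₀ x₀
  obtain ⟨m, hm, hli⟩ : ∃ m : Fin n → laurentBaseChange k F₀,
      (∀ i, m i ∈ Submonoid.closure (embSet k F₀)) ∧ LinearIndependent k⟮emb k F₀ x₀⟯ m := by
    refine Igusa.exists_linearIndependent_monomials (K := k⟮emb k F₀ x₀⟯) (embSet k F₀) ?_
    rw [htop, IntermediateField.finrank_top', hk.finrank_eq]
  have hm' : ∀ i, ∃ f : F₀, emb k F₀ f = m i := fun i => by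
    have := hm i
    rw [← SetLike.mem_coe, closure_embSet] at this
    exact this
  choose b hb using hm'
  refine ⟨b, ?_⟩
  have : (fun i => emb k F₀ (b i)) = m := funext hb
  rw [this]
  exact hli

/-- **(H4) for rational data**: polynomial independence of the reductions. -/
theorem indepK_qA (b : Fin n → F₀)
    (hk : Transcendental k (emb k F₀ x₀))
    (hli : LinearIndependent k⟮emb k F₀ x₀⟯ (fun i => emb k F₀ (b i))) :
    IndepK A π (qA A π hπ (x₀ : LaurentSeries ℚ))
      (fun i => qA A π hπ ((b i : F₀) : LaurentSeries ℚ)) := by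
  intro c hc i
  rw [Fintype.linearIndependent_iff] at hli
  set xk := emb k F₀ x₀ with hxk
  have hmem : ∀ i, aeval xk (c i) ∈ k⟮xk⟯ := fun i => by
    have hj : xk ∈ k⟮xk⟯ := IntermediateField.mem_adjoin_simple_self k xk
    rw [aeval_def, eval₂_eq_sum_range]
    refine sum_mem fun n _ => mul_mem (IntermediateField.algebraMap_mem _ _) (pow_mem hj n)
  have hcoe : ∀ i, ((aeval xk (c i) : laurentBaseChange k F₀) : LaurentSeries k) =
      aeval (coeffEmb k (x₀ : LaurentSeries ℚ)) (c i) := fun i =>
    (Polynomial.aeval_algHom_apply (laurentBaseChange k F₀).val xk (c i)).symm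
  have h1 := hli (fun i => ⟨aeval xk (c i), hmem i⟩) (by
    apply Subtype.ext
    refine Eq.trans ?_ (hc.trans (ZeroMemClass.coe_zero _).symm)
    rw [show (((∑ i, (⟨aeval xk (c i), hmem i⟩ : k⟮xk⟯) • emb k F₀ (b i) :
        laurentBaseChange k F₀)) : LaurentSeries k) = (laurentBaseChange k F₀).val
        (∑ i, (⟨aeval xk (c i), hmem i⟩ : k⟮xk⟯) • emb k F₀ (b i)) from rfl, map_sum, comboK]
    refine Finset.sum_congr rfl fun i _ => ?_
    rw [IntermediateField.smul_def, smul_eq_mul, map_mul, aRed_qA, aRed_qA]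
    show ((aeval xk (c i) : laurentBaseChange k F₀) : LaurentSeries k) * _ = _
    rw [hcoe]
    rfl) i
  have h2 : aeval xk (c i) = 0 := congrArg Subtype.val h1
  exact (transcendental_iff_injective.mp hk) (by rw [h2, map_zero])

/-- **Rational orthonormal data** for `laurentBaseChange L F₀` over `laurentBaseChange k F₀`, in
residue characteristic zero, from a rational separating variable. -/
theorem exists_qOrthoData (hk : IsSepVar k (emb k F₀ x₀) n)
    (hLfin : FiniteDimensional (IntermediateField.adjoin L {emb L F₀ x₀}) (laurentBaseChange L F₀))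
    (hLrank : Module.finrank (IntermediateField.adjoin L {emb L F₀ x₀})
      (laurentBaseChange L F₀) ≤ n) :
    ∃ D : OrthoData A π (laurentBaseChange L F₀) (laurentBaseChange k F₀) n,
      D.x = qA A π hπ (x₀ : LaurentSeries ℚ) ∧
        ∀ i, ∃ f : F₀, D.m i = qA A π hπ (f : LaurentSeries ℚ) := by
  obtain ⟨b, hli⟩ := exists_qMonomials F₀ x₀ hk
  have hxL : aIota A (qA A π hπ (x₀ : LaurentSeries ℚ)) ∈ laurentBaseChange L F₀ := by
    rw [aIota_qA]; exact coeffEmb_mem_laurentBaseChange L x₀.2
  have hx : (⟨aIota A (qA A π hπ (x₀ : LaurentSeries ℚ)), hxL⟩ : laurentBaseChange L F₀) =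
      emb L F₀ x₀ := Subtype.ext (aIota_qA A π hπ _)
  refine ⟨{ x := qA A π hπ (x₀ : LaurentSeries ℚ)
            m := fun i => qA A π hπ ((b i : F₀) : LaurentSeries ℚ)
            hx := hxL
            hm := fun i => by
              rw [aIota_qA]; exact coeffEmb_mem_laurentBaseChange L (b i).2
            finite := by rw [hx]; exact hLfin
            finrank_le := by rw [hx]; exact hLrank
            transc := by
              rw [aRed_qA]
              have h := hk.transcendental
              intro halg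
              apply h
              have : IsAlgebraic k ((laurentBaseChange k F₀).val (emb k F₀ x₀)) := halg
              exact (isAlgebraic_algHom_iff _ (laurentBaseChange k F₀).val.injective).mp this
            indep := indepK_qA A π hπ F₀ x₀ b hk.transcendental hli
            hxt := by rw [aRed_qA]; exact coeffEmb_mem_laurentBaseChange k x₀.2
            hmt := fun i => by rw [aRed_qA]; exact coeffEmb_mem_laurentBaseChange k (b i).2
            gen := ⟨(qA A π hπ) '' (F₀ : Set (LaurentSeries ℚ)), ?_, ?_⟩ }, rfl,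
            fun i => ⟨b i, rfl⟩⟩
  · rintro _ ⟨f, hf, rfl⟩
    rw [aIota_qA]
    exact coeffEmb_mem_laurentBaseChange L hf
  · unfold laurentBaseChange
    apply IntermediateField.adjoin.mono
    rintro _ ⟨f, hf, rfl⟩
    exact ⟨qA A π hπ f, ⟨f, hf, rfl⟩, aRed_qA A π hπ f⟩

end Ortho

end Fermat.Agent.DS.J1Spec
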