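import Mathlib
import Fermat.Agent.DS.J1Spec.QOrtho
import Fermat.Agent.Jac.RedHecke
import Fermat.Agent.Jac.Spec.CorrRed

/-!
# Programme III (J1-PORT, Spec): transported pairs and Gauss compatibility of rational maps

`F, F' ⊆ L((q))`, `Ft, Ft' ⊆ k((q))`, `φL : F →ₐ[L] F'`, `φk : Ft →ₐ[k] Ft'`.  A pair
`(s, s')` of series over `A` is *transported* (`TPair`) if `φL (aIota s) = aIota s'` and
`φk (aRed s) = aRed s'`.  Transported pairs are closed under the ring operations, contain the
constants, hence are closed under `comboA` (`TPair.comboA`).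

* `exists_combo_fraction` : explicit fraction form of the elements of `F` for orthonormal data;
* `map_mem_and_res` : if the orthonormal data `D` of `F` (`D.x`, `D.m i`) are first components of
  transported pairs, then `φL` maps the Gauss ring of `F` into that of `F'` and commutes with the
  Gauss residue maps (target: any Gauss constant reduction `S'`);
* `resCompat_of_tPair` : the same in the form `Jac.Spec.ResCompat`.
-/

set_option autoImplicit false

namespace Fermat.Agent.DS.J1Spec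

open ModularCurve Polynomial IntermediateField Fermat.Agent Fermat.Agent.Val Fermat.Agent.X0
  Fermat.Agent.Jac.RedHecke

variable {L : Type*} [Field L] {A : ValuationSubring L} {k : Type*} [Field k] {π : A →+* k}
  {F F' : IntermediateField L (LaurentSeries L)} {Ft Ft' : IntermediateField k (LaurentSeries k)}

/-- `(s, s')` is a transported pair for `(φL, φk)`. -/
structure TPair (π : A →+* k) (φL : F →ₐ[L] F') (φk : Ft →ₐ[k] Ft') (s s' : LaurentSeries A) :
    Prop where
  memL : aIota A s ∈ F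
  memL' : aIota A s' ∈ F'
  memk : aRed π s ∈ Ft
  memk' : aRed π s' ∈ Ft'
  mapL : φL ⟨aIota A s, memL⟩ = ⟨aIota A s', memL'⟩
  mapk : φk ⟨aRed π s, memk⟩ = ⟨aRed π s', memk'⟩

namespace TPair

variable {φL : F →ₐ[L] F'} {φk : Ft →ₐ[k] Ft'}

theorem const (a : A) : TPair π φL φk (HahnSeries.C a) (HahnSeries.C a) := by
  have h1 : aIota A (HahnSeries.C a) = algebraMap L (LaurentSeries L) (a : L) := by
    rw [aIota_C, algebraMap_laurentSeries_eq_C]
  have h2 : aRed π (HahnSeries.C a) = algebraMap k (LaurentSeries k) (π a) := by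
    rw [aRed_C, algebraMap_laurentSeries_eq_C]
  have m1 : aIota A (HahnSeries.C a) ∈ F := by rw [h1]; exact F.algebraMap_mem _
  have m1' : aIota A (HahnSeries.C a) ∈ F' := by rw [h1]; exact F'.algebraMap_mem _
  have m2 : aRed π (HahnSeries.C a) ∈ Ft := by rw [h2]; exact Ft.algebraMap_mem _
  have m2' : aRed π (HahnSeries.C a) ∈ Ft' := by rw [h2]; exact Ft'.algebraMap_mem _
  refine ⟨m1, m1', m2, m2', ?_, ?_⟩
  · have e : (⟨aIota A (HahnSeries.C a), m1⟩ : F) = algebraMap L F (a : L) := Subtype.ext h1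
    rw [e, AlgHom.commutes]
    exact Subtype.ext h1.symm
  · have e : (⟨aRed π (HahnSeries.C a), m2⟩ : Ft) = algebraMap k Ft (π a) := Subtype.ext h2
    rw [e, AlgHom.commutes]
    exact Subtype.ext h2.symm

theorem zero : TPair π φL φk (0 : LaurentSeries A) 0 := by
  have := const (π := π) (φL := φL) (φk := φk) (0 : A)
  rwa [map_zero] at this

theorem one : TPair π φL φk (1 : LaurentSeries A) 1 := by
  have := const (π := π) (φL := φL) (φk := φk) (1 : A)
  rwa [map_one] at this

theorem add {s s' t t' : LaurentSeries A} (h : TPair π φL φk s s') (h' : TPair π φL φk t t') :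
    TPair π φL φk (s + t) (s' + t') := by
  have m1 : aIota A (s + t) ∈ F := by rw [map_add]; exact add_mem h.memL h'.memL
  have m1' : aIota A (s' + t') ∈ F' := by rw [map_add]; exact add_mem h.memL' h'.memL'
  have m2 : aRed π (s + t) ∈ Ft := by rw [map_add]; exact add_mem h.memk h'.memk
  have m2' : aRed π (s' + t') ∈ Ft' := by rw [map_add]; exact add_mem h.memk' h'.memk'
  refine ⟨m1, m1', m2, m2', ?_, ?_⟩
  · have e : (⟨aIota A (s + t), m1⟩ : F) = ⟨aIota A s, h.memL⟩ + ⟨aIota A t, h'.memL⟩ :=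
      Subtype.ext (map_add _ _ _)
    rw [e, map_add, h.mapL, h'.mapL]
    exact Subtype.ext (map_add _ _ _).symm
  · have e : (⟨aRed π (s + t), m2⟩ : Ft) = ⟨aRed π s, h.memk⟩ + ⟨aRed π t, h'.memk⟩ :=
      Subtype.ext (map_add _ _ _)
    rw [e, map_add, h.mapk, h'.mapk]
    exact Subtype.ext (map_add _ _ _).symm

theorem mul {s s' t t' : LaurentSeries A} (h : TPair π φL φk s s') (h' : TPair π φL φk t t') :
    TPair π φL φk (s * t) (s' * t') := by
  have m1 : aIota A (s * t) ∈ F := by rw [map_mul]; exact mul_mem h.memL h'.memL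
  have m1' : aIota A (s' * t') ∈ F' := by rw [map_mul]; exact mul_mem h.memL' h'.memL'
  have m2 : aRed π (s * t) ∈ Ft := by rw [map_mul]; exact mul_mem h.memk h'.memk
  have m2' : aRed π (s' * t') ∈ Ft' := by rw [map_mul]; exact mul_mem h.memk' h'.memk'
  refine ⟨m1, m1', m2, m2', ?_, ?_⟩
  · have e : (⟨aIota A (s * t), m1⟩ : F) = ⟨aIota A s, h.memL⟩ * ⟨aIota A t, h'.memL⟩ :=
      Subtype.ext (map_mul _ _ _)
    rw [e, map_mul, h.mapL, h'.mapL]
    exact Subtype.ext (map_mul _ _ _).symm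
  · have e : (⟨aRed π (s * t), m2⟩ : Ft) = ⟨aRed π s, h.memk⟩ * ⟨aRed π t, h'.memk⟩ :=
      Subtype.ext (map_mul _ _ _)
    rw [e, map_mul, h.mapk, h'.mapk]
    exact Subtype.ext (map_mul _ _ _).symm

theorem pow {s s' : LaurentSeries A} (h : TPair π φL φk s s') (j : ℕ) :
    TPair π φL φk (s ^ j) (s' ^ j) := by
  induction j with
  | zero => simpa using one
  | succ j ih => rw [pow_succ, pow_succ]; exact ih.mul h

theorem sum {ι : Type*} (T : Finset ι) {s s' : ι → LaurentSeries A}
    (h : ∀ i ∈ T, TPair π φL φk (s i) (s' i)) : TPair π φL φk (∑ i ∈ T, s i) (∑ i ∈ T, s' i) := by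
  classical
  induction T using Finset.induction_on with
  | empty => simpa using zero
  | insert a T ha ih =>
    rw [Finset.sum_insert ha, Finset.sum_insert ha]
    exact (h a (Finset.mem_insert_self a T)).add
      (ih fun i hi => h i (Finset.mem_insert_of_mem hi))

theorem eval₂ {s s' : LaurentSeries A} (h : TPair π φL φk s s') (p : A[X]) :
    TPair π φL φk (p.eval₂ HahnSeries.C s) (p.eval₂ HahnSeries.C s') := by
  rw [Polynomial.eval₂_eq_sum_range, Polynomial.eval₂_eq_sum_range]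
  exact sum _ fun j _ => (const _).mul (h.pow j)

theorem comboA {n : ℕ} {x x' : LaurentSeries A} {m m' : Fin n → LaurentSeries A}
    (hx : TPair π φL φk x x') (hm : ∀ i, TPair π φL φk (m i) (m' i)) (c : Fin n → A[X]) :
    TPair π φL φk (Val.comboA A x m c) (Val.comboA A x' m' c) :=
  sum _ fun i _ => (hx.eval₂ (c i)).mul (hm i)

/-- nonvanishing of the reduction is preserved -/
theorem aRed_ne_zero {s s' : LaurentSeries A} (h : TPair π φL φk s s') (hs : aRed π s ≠ 0) :
    aRed π s' ≠ 0 := by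
  intro h0
  have h1 : φk ⟨aRed π s, h.memk⟩ = 0 := by
    rw [h.mapk]; exact Subtype.ext h0
  have h2 := (map_eq_zero φk).mp h1
  exact hs (congrArg Subtype.val h2)

end TPair

section Fraction

variable {n : ℕ} (D : OrthoData A π F Ft n)

/-- **Explicit fraction form**: every nonzero `f ∈ F` is `c · comboA P' / Q'(x)` with `P'`, `Q'`
over `A` with nonzero reductions. -/
theorem exists_combo_fraction {f : LaurentSeries L} (hf : f ∈ F) (hf0 : f ≠ 0) :
    ∃ (c : L) (P' : Fin n → A[X]) (Q' : A[X]), c ≠ 0 ∧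
      aRed π (Val.comboA A D.x D.m P') ≠ 0 ∧ aRed π (Q'.eval₂ HahnSeries.C D.x) ≠ 0 ∧
      f * aIota A (Q'.eval₂ HahnSeries.C D.x) =
        HahnSeries.C c * aIota A (Val.comboA A D.x D.m P') := by
  obtain ⟨P, Q, hQ, hPQ⟩ := D.exists_combo hf
  have hP : P ≠ 0 := by
    rintro rfl
    have h0 : comboL A D.x D.m (0 : Fin n → L[X]) = 0 := by simp [comboL]
    rw [h0] at hPQ
    exact (mul_ne_zero hf0 (D.aeval_ne_zero hQ)) hPQ
  obtain ⟨d, P', -, -, -, hredP, heqP, hcontP⟩ := hasContent_comboL D.indep hP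
  obtain ⟨e, Q', -, -, -, hredQ, heqQ, hcontQ⟩ := D.hasContent_aeval hQ
  have hd0 : d ≠ 0 := hcontP.1
  have he0 : e ≠ 0 := hcontQ.1
  refine ⟨d * e⁻¹, P', Q', mul_ne_zero hd0 (inv_ne_zero he0), hredP, hredQ, ?_⟩
  have hCe : (HahnSeries.C e : LaurentSeries L) ≠ 0 := C_ne_zero_of_ne_zero he0
  have h1 : f * (HahnSeries.C e * aIota A (Q'.eval₂ HahnSeries.C D.x)) =
      HahnSeries.C d * aIota A (Val.comboA A D.x D.m P') := by
    rw [← heqQ, hPQ, heqP]
  rw [map_mul, map_inv₀]
  field_simp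
  rw [← h1]
  ring

end Fraction

section Main

variable {n : ℕ} (D : OrthoData A π F Ft n)
  (hπ : ∀ a : A, a ∈ IsLocalRing.maximalIdeal A → π a = 0)
  (S' : ConstRed (F := F') (Ft := Ft') A π) (hS' : IsGauss S')
  (φL : F →ₐ[L] F') (φk : Ft →ₐ[k] Ft')
  {x' : LaurentSeries A} {m' : Fin n → LaurentSeries A}

include hS' in
/-- **Gauss compatibility of a map transporting the orthonormal data.** -/
theorem map_mem_and_res (hx : TPair π φL φk D.x x') (hm : ∀ i, TPair π φL φk (D.m i) (m' i))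
    (y : F) (hy : y ∈ D.valSubring) :
    ∃ h : φL y ∈ S'.O, S'.res ⟨φL y, h⟩ = φk (D.res hπ ⟨y, hy⟩) := by
  by_cases hy0 : (y : LaurentSeries L) = 0
  · have hy0' : y = 0 := Subtype.ext hy0
    subst hy0'
    have h0 : φL (0 : F) ∈ S'.O := by rw [map_zero]; exact S'.O.zero_mem
    refine ⟨h0, ?_⟩
    have e1 : (⟨φL (0 : F), h0⟩ : S'.O) = 0 := Subtype.ext (map_zero φL)
    have e2 : (⟨(0 : F), hy⟩ : D.valSubring) = 0 := rfl
    rw [e1, e2, map_zero, map_zero, map_zero]
  obtain ⟨c, P', Q', hc, hred1, hred2, heq⟩ := exists_combo_fraction D y.2 hy0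
  set y₁ := Val.comboA A D.x D.m P' with hy₁
  set y₂ := Q'.eval₂ HahnSeries.C D.x with hy₂
  have T1 : TPair π φL φk y₁ (Val.comboA A x' m' P') := TPair.comboA hx hm P'
  have T2 : TPair π φL φk y₂ (Q'.eval₂ HahnSeries.C x') := hx.eval₂ Q'
  set y₁' := Val.comboA A x' m' P' with hy₁'
  set y₂' := Q'.eval₂ HahnSeries.C x' with hy₂'
  have hred1' : aRed π y₁' ≠ 0 := T1.aRed_ne_zero hred1
  have hred2' : aRed π y₂' ≠ 0 := T2.aRed_ne_zero hred2
  -- content of `y`
  have hcont : HasContent A π (y : LaurentSeries L) c := ⟨hc, y₁, y₂, hred1, hred2, heq⟩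
  have hcA : c ∈ A := (hcont.mem_gaussRingA_iff hπ).mp hy
  -- the equation in `F`, transported by `φL`
  have hCc : (HahnSeries.C c : LaurentSeries L) = algebraMap L (LaurentSeries L) c := by
    rw [algebraMap_laurentSeries_eq_C]
  have eF : y * (⟨aIota A y₂, T2.memL⟩ : F) = algebraMap L F c * ⟨aIota A y₁, T1.memL⟩ := by
    apply Subtype.ext
    show (y : LaurentSeries L) * aIota A y₂ = algebraMap L (LaurentSeries L) c * aIota A y₁
    rw [← hCc]
    exact heq
  have eF' := congrArg φL eF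
  rw [map_mul, map_mul, T2.mapL, T1.mapL, AlgHom.commutes] at eF'
  have heq' : ((φL y : F') : LaurentSeries L) * aIota A y₂' = HahnSeries.C c * aIota A y₁' := by
    have := congrArg (fun z : F' => (z : LaurentSeries L)) eF'
    rw [hCc]
    exact this
  have hcont' : HasContent A π ((φL y : F') : LaurentSeries L) c :=
    ⟨hc, y₁', y₂', hred1', hred2', heq'⟩
  have hmem' : ((φL y : F') : LaurentSeries L) ∈ gaussRingA A π :=
    hcont'.mem_gaussRingA_of_mem hcA
  have hO' : φL y ∈ S'.O := (hS'.mem_iff _).mpr hmem'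
  refine ⟨hO', ?_⟩
  apply Subtype.ext
  rw [hS'.res_eq ⟨φL y, hO'⟩ hmem', HasContent.gaussResA_eq hred2' heq' hcA hmem']
  -- the residue of `y`
  have hres : ((D.res hπ ⟨y, hy⟩ : Ft) : LaurentSeries k) =
      HahnSeries.C (π ⟨c, hcA⟩) * (aRed π y₁ / aRed π y₂) := by
    rw [D.coe_res hπ, D.resSeries_apply, HasContent.gaussResA_eq hred2 heq hcA hy]
  have hCk : (HahnSeries.C (π ⟨c, hcA⟩) : LaurentSeries k) =
      algebraMap k (LaurentSeries k) (π ⟨c, hcA⟩) := by
    rw [algebraMap_laurentSeries_eq_C]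
  have eK : D.res hπ ⟨y, hy⟩ = algebraMap k Ft (π ⟨c, hcA⟩) *
      ((⟨aRed π y₁, T1.memk⟩ : Ft) / ⟨aRed π y₂, T2.memk⟩) := by
    apply Subtype.ext
    rw [hres, hCk]
    rfl
  rw [eK, map_mul, map_div₀, T1.mapk, T2.mapk, AlgHom.commutes, hCk]
  rfl

end Main

end Fermat.Agent.DS.J1Spec
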