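import Mathlib
import Fermat.Agent.DS.J1Spec.Transport
import Fermat.Agent.DS.J1Spec.Induced
import Fermat.Agent.DS.J1Spec.Semilinear

/-!
# Programme III (J1-PORT, Red → ES): the bridge to the Eichler–Shimura congruence with nebentypus

The valuation ring of a Gauss reduction of `F ⊆ L((q))` is `F ∩ gaussRingA A π`, the ring of
*fractions* `ι a / ι b` with `b ≢ 0`; it is strictly larger than the ring of elements of `F` with
`A`-integral coefficients (`1 / (1 + p j)` is a Gauss unit with unbounded denominators).  The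
series-level norm congruences are statements about integral series; this file reduces statements
about all Gauss units to statements about integral elements, in presence of an automorphism `δ` of
`F` fixing the separating variable `x` (a diamond operator).

`D : Val.OrthoData A π F Ft n`, `δ : F ≃ₐ[L] F` with `δ D.xF = D.xF`.

* `algEquiv_fix_evalA` : `δ` fixes `Q(x)` for `Q ∈ A[X]`;
* `exists_integral_num_polyDen` : every nonzero `y` of the Gauss ring of `F` is `ι u₀ / ι Q(x)`
  with `u₀ ∈ A((q))`, `ι u₀ ∈ F`, `Q ∈ A[X]`, `Q(x) ≢ 0`;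
* **`exists_delta_integral_fraction`** (E1) : moreover one can achieve that `δ (ι u₀) = ι u₁` is
  integral too;
* `mem_of_aIota`, `res_of_aIota` (E5) : integral elements lie in the valuation ring of a Gauss
  reduction and their residue is the coefficientwise reduction;
* **`unit_norm_data`** (E2) : norm data for integral elements imply norm data for all units;
* **`exists_diamond_red`** (E3) : the reduction `δt : SemilinearAut k Ft` of `δ`;
* `frobAut`, `coe_frobAut_smul` (E4) : the coefficientwise Frobenius as a semilinear automorphism.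
-/

set_option autoImplicit false

namespace Fermat.Agent.DS.J1Spec

open AlgebraicCurve ModularCurve Polynomial IntermediateField Fermat.Agent Fermat.Agent.Val
  Fermat.Agent.Jac.RedHecke

section Fix

variable {L : Type*} [Field L] {A : ValuationSubring L} {k : Type*} [Field k] {π : A →+* k}
  {F : IntermediateField L (LaurentSeries L)} {Ft : IntermediateField k (LaurentSeries k)}
  {n : ℕ} (D : OrthoData A π F Ft n)
  (hπ : ∀ a : A, a ∈ IsLocalRing.maximalIdeal A → π a = 0)

/-- the structure map `A → F` -/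
noncomputable def toF (F : IntermediateField L (LaurentSeries L)) : A →+* F :=
  (algebraMap L F).comp A.subtype

theorem val_comp_toF :
    (F.val : F →+* LaurentSeries L).comp (toF (A := A) F) =
      (aIota A).comp (HahnSeries.C : A →+* LaurentSeries A) := by
  ext1 a
  show ((algebraMap L F (a : L) : F) : LaurentSeries L) = aIota A (HahnSeries.C a)
  rw [aIota_C, ← algebraMap_laurentSeries_eq_C]
  rfl

/-- `ι (Q(x))` as the value of `Q` at `x ∈ F`. -/
theorem coe_eval₂_toF (Q : A[X]) :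
    ((Q.eval₂ (toF (A := A) F) D.xF : F) : LaurentSeries L) =
      aIota A (Q.eval₂ HahnSeries.C D.x) := by
  have h1 := Polynomial.hom_eval₂ Q (toF (A := A) F) (F.val : F →+* LaurentSeries L) D.xF
  have h2 := Polynomial.hom_eval₂ Q (HahnSeries.C : A →+* LaurentSeries A) (aIota A) D.x
  rw [h2, ← val_comp_toF]
  exact h1

theorem aIota_eval₂_mem (Q : A[X]) : aIota A (Q.eval₂ HahnSeries.C D.x) ∈ F := by
  rw [← coe_eval₂_toF D Q]
  exact SetLike.coe_mem _

/-- **An `L`-automorphism fixing `x` fixes `Q(x)`, `Q ∈ A[X]`.** -/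
theorem algEquiv_fix_evalA (δ : F ≃ₐ[L] F) (hδx : δ D.xF = D.xF) (Q : A[X]) :
    δ ⟨aIota A (Q.eval₂ HahnSeries.C D.x), aIota_eval₂_mem D Q⟩ =
      ⟨aIota A (Q.eval₂ HahnSeries.C D.x), aIota_eval₂_mem D Q⟩ := by
  have e : (⟨aIota A (Q.eval₂ HahnSeries.C D.x), aIota_eval₂_mem D Q⟩ : F) =
      Q.eval₂ (toF (A := A) F) D.xF := Subtype.ext (coe_eval₂_toF D Q).symm
  rw [e]
  have h1 := Polynomial.hom_eval₂ Q (toF (A := A) F) ((δ : F ≃+* F) : F →+* F) D.xF
  have h2 : (((δ : F ≃+* F) : F →+* F)).comp (toF (A := A) F) = toF (A := A) F := by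
    ext1 a
    show δ (algebraMap L F (a : L)) = algebraMap L F (a : L)
    exact δ.commutes _
  rw [h2] at h1
  have h3 : ((δ : F ≃+* F) : F →+* F) D.xF = D.xF := hδx
  rw [h3] at h1
  exact h1

include hπ in
/-- **Integral numerator, polynomial denominator**: every nonzero element of the Gauss ring of `F`
is `ι u₀ / ι Q(x)`. -/
theorem exists_integral_num_polyDen (y : F) (hy : y ∈ D.valSubring) (hy0 : y ≠ 0) :
    ∃ (u₀ : LaurentSeries A) (Q : A[X]), aIota A u₀ ∈ F ∧
      aRed π (Q.eval₂ HahnSeries.C D.x) ≠ 0 ∧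
      (y : LaurentSeries L) * aIota A (Q.eval₂ HahnSeries.C D.x) = aIota A u₀ := by
  have hy0' : (y : LaurentSeries L) ≠ 0 := fun h => hy0 (Subtype.ext h)
  obtain ⟨c, P', Q', hc, hred1, hred2, heq⟩ := exists_combo_fraction D y.2 hy0'
  have hcont : HasContent A π (y : LaurentSeries L) c :=
    ⟨hc, Val.comboA A D.x D.m P', Q'.eval₂ HahnSeries.C D.x, hred1, hred2, heq⟩
  have hcA : c ∈ A := (hcont.mem_gaussRingA_iff hπ).mp hy
  refine ⟨HahnSeries.C (⟨c, hcA⟩ : A) * Val.comboA A D.x D.m P', Q', ?_, hred2, ?_⟩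
  · rw [map_mul, aIota_C]
    refine mul_mem ?_ ?_
    · rw [← algebraMap_laurentSeries_eq_C]
      exact F.algebraMap_mem c
    · rw [aIota_comboA]
      exact D.comboL_mem _
  · rw [map_mul, aIota_C]
    exact heq

include hπ in
/-- **(E1) `δ`-integral fraction form**: every nonzero element `y` of the Gauss ring of `F` is
`ι u₀ / ι Q(x)` with `u₀` integral, `δ (ι u₀) = ι u₁` integral, `Q ∈ A[X]` with `Q(x) ≢ 0`
(and `δ` fixes `ι Q(x)`, `algEquiv_fix_evalA`). -/
theorem exists_delta_integral_fraction (δ : F ≃ₐ[L] F) (hδx : δ D.xF = D.xF)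
    (y : F) (hy : y ∈ D.valSubring) (hy0 : y ≠ 0) :
    ∃ (u₀ u₁ : LaurentSeries A) (Q : A[X]) (hu : aIota A u₀ ∈ F),
      aRed π (Q.eval₂ HahnSeries.C D.x) ≠ 0 ∧
      (y : LaurentSeries L) * aIota A (Q.eval₂ HahnSeries.C D.x) = aIota A u₀ ∧
      ((δ ⟨aIota A u₀, hu⟩ : F) : LaurentSeries L) = aIota A u₁ := by
  obtain ⟨w₀, Q₁, hw, hQ₁, h1⟩ := exists_integral_num_polyDen D hπ y hy hy0
  set W : F := ⟨aIota A w₀, hw⟩ with hW
  set V₁ : F := ⟨aIota A (Q₁.eval₂ HahnSeries.C D.x), aIota_eval₂_mem D Q₁⟩ with hV₁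
  have hV₁0 : V₁ ≠ 0 := fun h =>
    aIota_ne_zero_of_aRed_ne_zero A π hQ₁ (congrArg Subtype.val h)
  have hyV : y * V₁ = W := Subtype.ext h1
  have hW0 : W ≠ 0 := by rw [← hyV]; exact mul_ne_zero hy0 hV₁0
  have hWmem : W ∈ D.valSubring := aIota_mem_gaussRingA A π w₀
  have hδW : δ W ∈ D.valSubring := (algEquiv_mem_valSubring_iff D hπ δ hδx W).mpr hWmem
  have hδW0 : δ W ≠ 0 := fun h => hW0 ((map_eq_zero δ).mp h)
  obtain ⟨w₁, Q₂, -, hQ₂, h2⟩ := exists_integral_num_polyDen D hπ (δ W) hδW hδW0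
  set V₂ : F := ⟨aIota A (Q₂.eval₂ HahnSeries.C D.x), aIota_eval₂_mem D Q₂⟩ with hV₂
  have hu : aIota A (w₀ * Q₂.eval₂ HahnSeries.C D.x) ∈ F := by
    rw [map_mul]; exact mul_mem hw (aIota_eval₂_mem D Q₂)
  refine ⟨w₀ * Q₂.eval₂ HahnSeries.C D.x, w₁, Q₁ * Q₂, hu, ?_, ?_, ?_⟩
  · rw [Polynomial.eval₂_mul, map_mul]
    exact mul_ne_zero hQ₁ hQ₂
  · rw [Polynomial.eval₂_mul, map_mul, map_mul, ← mul_assoc, h1]
  · have e : (⟨aIota A (w₀ * Q₂.eval₂ HahnSeries.C D.x), hu⟩ : F) = W * V₂ :=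
      Subtype.ext (map_mul (aIota A) _ _)
    rw [e, map_mul, algEquiv_fix_evalA D δ hδx Q₂]
    exact h2

end Fix

section Gauss

variable {L : Type*} [Field L] {A : ValuationSubring L} {k : Type*} [Field k] {π : A →+* k}
  {F : IntermediateField L (LaurentSeries L)} {Ft : IntermediateField k (LaurentSeries k)}
  (S : ConstRed (F := F) (Ft := Ft) A π) (hS : IsGauss S)

include hS in
/-- **(E5a)** elements of `F` with `A`-integral coefficients lie in the valuation ring. -/
theorem mem_of_aIota (y : F) (y₀ : LaurentSeries A) (h : aIota A y₀ = (y : LaurentSeries L)) :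
    y ∈ S.O := by
  rw [hS.mem_iff, ← h]
  exact aIota_mem_gaussRingA A π y₀

include hS in
/-- **(E5b)** their residue is the coefficientwise reduction. -/
theorem res_of_aIota (y : S.O) (y₀ : LaurentSeries A)
    (h : aIota A y₀ = ((y : F) : LaurentSeries L)) :
    ((S.res y : Ft) : LaurentSeries k) = aRed π y₀ := by
  have hm : (((y : S.O) : F) : LaurentSeries L) ∈ gaussRingA A π := (hS.mem_iff _).mp y.2
  rw [hS.res_eq y hm]
  have e : (⟨(((y : S.O) : F) : LaurentSeries L), hm⟩ : gaussRingA A π) =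
      ⟨aIota A y₀, aIota_mem_gaussRingA A π y₀⟩ := Subtype.ext h.symm
  rw [e, gaussResA_aIota]

end Gauss

section Units

variable {L : Type*} [Field L] {A : ValuationSubring L} {k : Type*} [Field k] {π : A →+* k}
  {F : IntermediateField L (LaurentSeries L)} {Ft : IntermediateField k (LaurentSeries k)}
  {n : ℕ} (D : OrthoData A π F Ft n)
  (hπ : ∀ a : A, a ∈ IsLocalRing.maximalIdeal A → π a = 0)
  (S : ConstRed (F := F) (Ft := Ft) A π) (hS : IsGauss S)

include hπ hS in
/-- **(E2) Norm data for integral elements imply norm data for all units.**  `Nm : F → F` and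
`Φ : Ft → Ft` multiplicative, `Φ` without zeros outside `0`; `δ` an automorphism of `F` fixing `x`.
If `res (Nm y) = Φ (res y)` for all units `y` of `S.O` such that `y` and `δ y` have `A`-integral
coefficients, then the same holds for all units of `S.O`. -/
theorem unit_norm_data (δ : F ≃ₐ[L] F) (hδx : δ D.xF = D.xF)
    (Nm : F → F) (hNm : ∀ a b : F, Nm (a * b) = Nm a * Nm b)
    (Φ : Ft → Ft) (hΦ : ∀ a b : Ft, Φ (a * b) = Φ a * Φ b) (hΦ0 : ∀ a : Ft, a ≠ 0 → Φ a ≠ 0)
    (hint : ∀ (y : S.O) (y₀ y₁ : LaurentSeries A),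
      aIota A y₀ = ((y : F) : LaurentSeries L) →
      aIota A y₁ = ((δ (y : F) : F) : LaurentSeries L) → S.res y ≠ 0 →
      ∃ Y : S.O, (Y : F) = Nm (y : F) ∧ S.res Y = Φ (S.res y))
    (y : S.O) (hy : S.res y ≠ 0) :
    ∃ Y : S.O, (Y : F) = Nm (y : F) ∧ S.res Y = Φ (S.res y) := by
  have hy0 : (y : F) ≠ 0 := by
    intro h
    apply hy
    have : y = 0 := Subtype.ext h
    rw [this, map_zero]
  have hyD : (y : F) ∈ D.valSubring := (hS.mem_iff _).mp y.2
  obtain ⟨u₀, u₁, Q, hu, hQ, h1, h2⟩ :=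
    exists_delta_integral_fraction D hπ δ hδx (y : F) hyD hy0
  -- numerator and denominator as elements of `S.O`
  set UF : F := ⟨aIota A u₀, hu⟩ with hUF
  set VF : F := ⟨aIota A (Q.eval₂ HahnSeries.C D.x), aIota_eval₂_mem D Q⟩ with hVF
  have hUmem : UF ∈ S.O := mem_of_aIota S hS UF u₀ rfl
  have hVmem : VF ∈ S.O := mem_of_aIota S hS VF _ rfl
  set U : S.O := ⟨UF, hUmem⟩ with hU
  set V : S.O := ⟨VF, hVmem⟩ with hV
  have hyV : y * V = U := Subtype.ext (Subtype.ext h1)
  have hresV : S.res V ≠ 0 := by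
    intro h0
    apply hQ
    rw [← res_of_aIota S hS V (Q.eval₂ HahnSeries.C D.x) rfl, h0]
    rfl
  have hresU : S.res U = S.res y * S.res V := by rw [← hyV, map_mul]
  have hresU0 : S.res U ≠ 0 := by rw [hresU]; exact mul_ne_zero hy hresV
  -- norm data for `U` and `V`
  obtain ⟨YU, hYU, hYUr⟩ := hint U u₀ u₁ rfl h2.symm hresU0
  have hδV : ((δ (V : F) : F) : LaurentSeries L) = aIota A (Q.eval₂ HahnSeries.C D.x) := by
    show ((δ VF : F) : LaurentSeries L) = _
    rw [hVF, algEquiv_fix_evalA D δ hδx Q]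
  obtain ⟨YV, hYV, hYVr⟩ := hint V _ _ rfl hδV.symm hresV
  have hYVne : S.res YV ≠ 0 := by rw [hYVr]; exact hΦ0 _ hresV
  have hYVunit : IsUnit YV := by
    by_contra h
    exact hYVne ((S.res_eq_zero_iff YV).mpr h)
  obtain ⟨w, hw⟩ := hYVunit
  -- the quotient
  refine ⟨YU * ((w⁻¹ : (S.O)ˣ) : S.O), ?_, ?_⟩
  · have hNV0 : Nm (V : F) ≠ 0 := by
      rw [← hYV, ← hw]
      intro h0
      have : ((w : S.O) : F) = 0 := h0
      exact w.ne_zero (Subtype.ext this)
    have e1 : Nm (y : F) * Nm (V : F) = Nm (U : F) := by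
      rw [← hNm]
      congr 1
      exact congrArg Subtype.val hyV
    have e2 : ((YU * ((w⁻¹ : (S.O)ˣ) : S.O) : S.O) : F) * Nm (V : F) = Nm (U : F) := by
      rw [← hYV, ← hYU, ← hw]
      have : YU * ((w⁻¹ : (S.O)ˣ) : S.O) * (w : S.O) = YU := by
        rw [mul_assoc, Units.inv_mul, mul_one]
      exact congrArg Subtype.val this
    exact mul_right_cancel₀ hNV0 (e2.trans e1.symm)
  · have e3 : S.res (YU * ((w⁻¹ : (S.O)ˣ) : S.O)) * S.res YV = S.res YU := by
      rw [← map_mul, ← hw, mul_assoc, Units.inv_mul, mul_one]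
    have e4 : Φ (S.res y) * S.res YV = S.res YU := by
      rw [hYVr, hYUr, hresU, hΦ]
    exact mul_right_cancel₀ hYVne (e3.trans e4.symm)

include hS in
omit D in
/-- **(E5), shape of `DS/ES/LaurentAssembly.IsCoeffwise`.** -/
theorem isCoeffwise_of_isGauss :
    ∀ (y : F) (y₀ : LaurentSeries A), coeffMap A.subtype y₀ = (y : LaurentSeries L) →
      ∃ h : y ∈ S.O, ((S.res ⟨y, h⟩ : Ft) : LaurentSeries k) = coeffMap π y₀ :=
  fun y y₀ h => ⟨mem_of_aIota S hS y y₀ h, res_of_aIota S hS ⟨y, mem_of_aIota S hS y y₀ h⟩ y₀ h⟩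

include hπ hS in
/-- **(E1), shape of `DS/ES/LaurentAssembly.HasIntegralFractions`.** -/
theorem hasIntegralFractions_of_orthoData (δ : F ≃ₐ[L] F) (hδx : δ D.xF = D.xF) :
    ∀ y : S.O, S.res y ≠ 0 → ∃ (u v : F) (u₀ u₁ v₀ : LaurentSeries A),
      coeffMap A.subtype u₀ = (u : LaurentSeries L) ∧
      coeffMap A.subtype u₁ = ((δ u : F) : LaurentSeries L) ∧
      coeffMap A.subtype v₀ = (v : LaurentSeries L) ∧ δ v = v ∧ coeffMap π v₀ ≠ 0 ∧
      (y : F) * v = u := by
  intro y hy
  have hy0 : (y : F) ≠ 0 := by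
    intro h
    apply hy
    have : y = 0 := Subtype.ext h
    rw [this, map_zero]
  have hyD : (y : F) ∈ D.valSubring := (hS.mem_iff _).mp y.2
  obtain ⟨u₀, u₁, Q, hu, hQ, h1, h2⟩ :=
    exists_delta_integral_fraction D hπ δ hδx (y : F) hyD hy0
  exact ⟨⟨aIota A u₀, hu⟩, ⟨aIota A (Q.eval₂ HahnSeries.C D.x), aIota_eval₂_mem D Q⟩, u₀, u₁,
    Q.eval₂ HahnSeries.C D.x, rfl, h2.symm, rfl, algEquiv_fix_evalA D δ hδx Q, hQ,
    Subtype.ext h1⟩

end Units

section Diamond

variable {L : Type*} [Field L] {A : ValuationSubring L} {k : Type*} [Field k] {π : A →+* k}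
  {F : IntermediateField L (LaurentSeries L)} {Ft : IntermediateField k (LaurentSeries k)}
  {n : ℕ} (D : OrthoData A π F Ft n)
  (hπ : ∀ a : A, a ∈ IsLocalRing.maximalIdeal A → π a = 0)
  (S : ConstRed (F := F) (Ft := Ft) A π) (hS : IsGauss S)

include hπ hS in
/-- **(E3) The reduction of a diamond operator**: an `L`-automorphism `δ` of `F` fixing `x`
preserves the valuation ring of any Gauss reduction `S` of `F` and induces a `k`-automorphism of
`Ft`, as a `SemilinearAut` with trivial action on `k`. -/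
theorem exists_diamond_red (hπs : Function.Surjective π) (δ : F ≃ₐ[L] F) (hδx : δ D.xF = D.xF) :
    ∃ δt : Ft ≃ₐ[k] Ft, ∀ y : S.O, ∃ h : δ (y : F) ∈ S.O,
      S.res ⟨δ (y : F), h⟩ = SemilinearAut.ofAlgAut δt • S.res y := by
  have hσ : ∀ y : F, δ y ∈ S.O ↔ y ∈ S.O := by
    intro y
    rw [hS.mem_iff, hS.mem_iff]
    exact algEquiv_mem_valSubring_iff D hπ δ hδx y
  obtain ⟨σt, hσt⟩ := exists_residue_algEquiv S δ hσ hπs
  exact ⟨σt, fun y => ⟨(hσ y).mpr y.2, hσt y y.2⟩⟩

end Diamond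

section Frobenius

variable {k : Type*} [Field k] (ℓ : ℕ) [Fact ℓ.Prime] [CharP k ℓ] [PerfectRing k ℓ]
  {Ft : IntermediateField k (LaurentSeries k)} (hst : CoeffStable Ft)

/-- **(E4)** the coefficientwise Frobenius of `Ft` as a semilinear automorphism. -/
noncomputable def frobAut : SemilinearAut k Ft := coeffAut hst (frobeniusEquiv k ℓ)

theorem coe_frobAut_smul (z : Ft) :
    ((frobAut ℓ hst • z : Ft) : LaurentSeries k) =
      coeffMap (frobenius k ℓ) (z : LaurentSeries k) := by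
  rw [frobAut, coe_coeffAut_smul]
  rfl

end Frobenius

end Fermat.Agent.DS.J1Spec
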