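import Mathlib
import Fermat.Agent.DS.J1Spec.Decomp
import Fermat.Agent.DS.J1Spec.ESBridge
import Fermat.Agent.Val.DeuringMain

/-!
# Programme III (J1-PORT, Red): the mixed characteristic reduction package

`L/ℚ` algebraically closed (`L = ℚ̄`), `A ⊆ L` a rank one valuation subring, `k = ResidueField A`
algebraically closed; `F₀ ⊆ ℚ((q))` arbitrary, `F = laurentBaseChange L F₀`, `Ft ⊆ k((q))`
coefficientwise stable.  INPUT (the output of the good reduction block, `X1-GOOD`):

* `D : Val.OrthoData A (residue A) F Ft n` (orthonormal data: full residue degree),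
* `hF`, `hFt` Riemann packages and `hg : genusFF k Ft = genusFF L F` (good reduction).

OUTPUT **`exists_mixedPackage`** : a `Red.RedSetup R` extending the Gauss constant reduction of `D`
with

1. `redPic0 R` injective on the torsion prime to the residue characteristic;
2. `redPic0 R (σ • x) = coeffAut (decompResAut σ) • redPic0 R x` for `σ` in the decomposition
   group of `A` (hence inertia acts trivially after reduction and Frobenius elements act by the
   coefficientwise Frobenius: `redPic0_inertia_smul`, `redPic0_frobenius_smul`);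
3. every `L`-automorphism `δ` of `F` fixing `D.xF` (diamond operators) has a reduction
   `δt : Ft ≃ₐ[k] Ft` with `res (δ y) = δt (res y)` and
   `redPic0 R (ofAlgAut δ • x) = ofAlgAut δt • redPic0 R x`.
-/

set_option autoImplicit false

namespace Fermat.Agent.DS.J1Spec

open ModularCurve AlgebraicCurve IsLocalRing Fermat.Agent Fermat.Agent.Val Fermat.Agent.Red
  Fermat.Agent.Jac.RedHecke Fermat.Agent.Jac.Spec

variable {L : Type*} [Field L] [Algebra ℚ L] {A : ValuationSubring L}
  (F₀ : IntermediateField ℚ (LaurentSeries ℚ))
  {Ft : IntermediateField (ResidueField A) (LaurentSeries (ResidueField A))}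
  (hst : CoeffStable Ft) {n : ℕ}
  (D : OrthoData A (residue A) (laurentBaseChange L F₀) Ft n)

/-- the kernel condition of the residue map of a valuation subring -/
theorem residue_eq_zero_of_mem (a : A) (ha : a ∈ IsLocalRing.maximalIdeal A) :
    residue A a = 0 := (residue_eq_zero_iff a).mpr ha

/-- **The mixed characteristic reduction package.** -/
theorem exists_mixedPackage (hL : IsAlgClosed L) (hk : IsAlgClosed (ResidueField A))
    (hA : Red.IsRankOne A)
    (hF : RiemannPkg L (laurentBaseChange L F₀)) (hFt : RiemannPkg (ResidueField A) Ft)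
    (hg : genusFF (ResidueField A) Ft = genusFF L (laurentBaseChange L F₀)) :
    ∃ R : Red.RedSetup (F := laurentBaseChange L F₀) (Ft := Ft) A (residue A),
      R.toConstRed = D.constRed residue_eq_zero_of_mem residue_surjective ∧
      IsGauss R.toConstRed ∧
      (∀ (m : ℕ), (m : ResidueField A) ≠ 0 → ∀ x : Pic0 L (laurentBaseChange L F₀),
        m • x = 0 → redPic0 R x = 0 → x = 0) ∧
      (∀ (σ : L ≃ₐ[ℚ] L) (hσ : σ ∈ A.decompositionSubgroup ℚ)
        (x : Pic0 L (laurentBaseChange L F₀)),
        redPic0 R (σ • x) = coeffAut hst (decompResAut A ⟨σ, hσ⟩) • redPic0 R x) ∧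
      ∀ δ : laurentBaseChange L F₀ ≃ₐ[L] laurentBaseChange L F₀, δ D.xF = D.xF →
        ∃ δt : Ft ≃ₐ[ResidueField A] Ft,
          ResCompat R R.toConstRed
            (δ : laurentBaseChange L F₀ →ₐ[L] laurentBaseChange L F₀)
            (δt : Ft →ₐ[ResidueField A] Ft) ∧
          ∀ x : Pic0 L (laurentBaseChange L F₀),
            redPic0 R (SemilinearAut.ofAlgAut δ • x) =
              SemilinearAut.ofAlgAut δt • redPic0 R x := by
  haveI : Infinite (ResidueField A) := IsAlgClosed.instInfinite
  obtain ⟨R, hR⟩ := ConstRed.exists_redSetup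
    (D.constRed residue_eq_zero_of_mem residue_surjective) residue_surjective hF hFt hg
  have hG : IsGauss R.toConstRed := by
    rw [hR]; exact isGauss_constRed D residue_eq_zero_of_mem residue_surjective
  refine ⟨R, hR, hG, ?_, ?_, ?_⟩
  · intro m hm x hmx hx
    exact eq_zero_of_redPic0_eq_zero R hL hk hA hF hFt hg m hm x hmx hx
  · intro σ hσ x
    exact redPic0_decomposition_smul F₀ hst R hG hF hFt hσ x
  · intro δ hδ
    obtain ⟨δt, hδt⟩ := exists_resCompat_of_fix D residue_eq_zero_of_mem residue_surjective R hR
      δ hδ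
    exact ⟨δt, hδt, fun x => redPic0_ofAlgAut_smul R residue_surjective hF hFt δ δt hδt x⟩

end Fermat.Agent.DS.J1Spec
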