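import Mathlib
import Fermat.Agent.DS.J1Spec.MixedPackage
import Fermat.Agent.Val.RankOne
import Fermat.Agent.Val.ResidueFieldA

/-!
# Programme III (J1-PORT, Red): good reduction ⇒ the prime-to-`p` torsion is unramified at `p`

`F₀ ⊆ ℚ((q))` arbitrary, `A` a valuation subring of `ℚ̄` over the prime `p`, `k = ResidueField A`.

* `GoodReductionAt F₀ A` : the output of the good reduction block for `F₀` at `A`: a coefficientwise
  stable field `Ft ⊆ k((q))`, orthonormal data `D` for `(F₀ ⊗ ℚ̄, Ft)`, the Riemann package of `Ft`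
  and the genus equality;
* **`inertia_smul_eq_of_goodReduction`** : if `F₀` has good reduction at `A`, the inertia group of
  `A` acts trivially on the `m`-torsion of `Pic⁰(F₀ ⊗ ℚ̄)` for every `m` prime to `p`
  (kernel `KUnr` of the `X₁`-out skeleton);
* `frobenius_quadratic_of_goodReduction` : a relation `Φ² − t Φ + d = 0` for the coefficientwise
  Frobenius of `Pic⁰(Ft)`, with `t`, `d` reductions of endomorphisms `T`, `Dm` of
  `Pic⁰(F₀ ⊗ ℚ̄)` commuting with the Galois action, lifts to the `m`-torsion, `m` prime to `p`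
  (kernel `KES`, mu-type).
-/

set_option autoImplicit false

namespace Fermat.Agent.DS.J1Spec

open ModularCurve AlgebraicCurve IsLocalRing Fermat.Agent Fermat.Agent.Val Fermat.Agent.Red
  Fermat.Agent.Jac.RedHecke Fermat.Agent.Jac.Spec

/-- **Good reduction of `F₀ ⊗ ℚ̄` at `A`** (the output of the good reduction block). -/
def GoodReductionAt (F₀ : IntermediateField ℚ (LaurentSeries ℚ))
    (A : ValuationSubring (AlgebraicClosure ℚ)) : Prop :=
  ∃ (Ft : IntermediateField (ResidueField A) (LaurentSeries (ResidueField A))) (n : ℕ)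
    (_ : OrthoData A (residue A) (laurentBaseChange (AlgebraicClosure ℚ) F₀) Ft n),
    CoeffStable Ft ∧ RiemannPkg (ResidueField A) Ft ∧
      genusFF (ResidueField A) Ft =
        genusFF (AlgebraicClosure ℚ) (laurentBaseChange (AlgebraicClosure ℚ) F₀)

variable {F₀ : IntermediateField ℚ (LaurentSeries ℚ)}
  {A : ValuationSubring (AlgebraicClosure ℚ)} {p : ℕ} [hp : Fact p.Prime]

/-- `m` prime to `p` is invertible in the residue field. -/
theorem natCast_residueField_ne_zero (hA : A.LiesOverPrime p) {m : ℕ} (hm : m.Coprime p) :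
    (m : ResidueField A) ≠ 0 := by
  haveI := charP_residueField_of_liesOverPrime A hA
  rw [Ne, CharP.cast_eq_zero_iff (ResidueField A) p]
  intro hdvd
  have h1 : p ∣ Nat.gcd m p := Nat.dvd_gcd hdvd dvd_rfl
  rw [hm] at h1
  exact hp.out.one_lt.ne' (Nat.dvd_one.mp h1)

/-- **Good reduction ⇒ unramified prime-to-`p` torsion.** -/
theorem inertia_smul_eq_of_goodReduction (hA : A.LiesOverPrime p)
    (hF : RiemannPkg (AlgebraicClosure ℚ) (laurentBaseChange (AlgebraicClosure ℚ) F₀))
    (hgood : GoodReductionAt F₀ A)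
    (σ : AlgebraicClosure ℚ ≃ₐ[ℚ] AlgebraicClosure ℚ) (hσ : σ ∈ A.inertiaSubgroupIn ℚ)
    (m : ℕ) (hm : m.Coprime p)
    (x : Pic0 (AlgebraicClosure ℚ) (laurentBaseChange (AlgebraicClosure ℚ) F₀))
    (hx : m • x = 0) : σ • x = x := by
  obtain ⟨Ft, n, D, hst, hFt, hg⟩ := hgood
  obtain ⟨R, -, hG, htors, -, -⟩ := exists_mixedPackage F₀ hst D inferInstance
    (residueField_isAlgClosed A) (Val.isRankOne A hA) hF hFt hg
  have h1 : m • (σ • x - x) = 0 := by
    have e : σ • (m • x) = m • (σ • x) :=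
      map_nsmul (DistribMulAction.toAddMonoidHom
        (Pic0 (AlgebraicClosure ℚ) (laurentBaseChange (AlgebraicClosure ℚ) F₀)) σ) m x
    have e0 : σ • (0 : Pic0 (AlgebraicClosure ℚ) (laurentBaseChange (AlgebraicClosure ℚ) F₀)) = 0 :=
      map_zero (DistribMulAction.toAddMonoidHom
        (Pic0 (AlgebraicClosure ℚ) (laurentBaseChange (AlgebraicClosure ℚ) F₀)) σ)
    rw [nsmul_sub, ← e, hx, e0, sub_zero]
  have h2 : redPic0 R (σ • x - x) = 0 := by
    rw [map_sub, redPic0_inertia_smul F₀ hst R hG hF hFt hσ x, sub_self]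
  exact sub_eq_zero.mp (htors m (natCast_residueField_ne_zero hA hm) _ h1 h2)

end Fermat.Agent.DS.J1Spec
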