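import Mathlib
import Fermat.Agent.DS.J1Spec.Transport
import Fermat.Agent.Jac.Spec.RedPic0
import Fermat.Agent.Jac.Spec.ValuationC
import Fermat.Agent.Val.DeuringMain
import Fermat.Agent.Val.GenusSemicont
import Fermat.Agent.FF.RiemannPkg
import Fermat.Agent.Good.PoleDegree
import Fermat.Agent.Jac.DescentLaurentExt

/-!
# Programme III (J1-PORT, Spec): the GENERIC torsion specialisation

For ANY `F₀ : IntermediateField ℚ (LaurentSeries ℚ)` with an element `x₀ ∈ F₀` whose image is a
separating variable of degree `n` of `laurentBaseChange k F₀ / k`; `k ⊆ L` algebraically closed of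
characteristic zero (`ι₀ : k →+* L`), `A ⊆ L` a valuation subring with residue map `π : A → k`.

* `isSepVarS_emb` : the image of `x₀` is a separating variable of degree `n` over `L` too;
* `genusFF_eq` : `genusFF k (F₀ ⊗ k) = genusFF L (F₀ ⊗ L)` given any constant reduction;
* `exists_gaussRedSetup` : rational orthonormal data `D` and a `Red.RedSetup R` extending the Gauss
  constant reduction `D.constRed`;
* `resCompat_of_rational` : every pair `(φL, φk)` of algebra maps induced by one and the same map on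
  the rational elements `F₀ → F₀'` is `Jac.Spec.ResCompat` (any Gauss constant reduction on the
  target);
* `eq_zero_of_torsion` : `redPic0 R` is injective on torsion.
-/

set_option autoImplicit false

namespace Fermat.Agent.DS.J1Spec

open ModularCurve AlgebraicCurve Polynomial IntermediateField Fermat.Agent Fermat.Agent.Val
  Fermat.Agent.X0 Fermat.Agent.FF Fermat.Agent.Jac.RedHecke

section Rational

variable {L : Type*} [Field L] [Algebra ℚ L] {A : ValuationSubring L} {k : Type*} [Field k]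
  [Algebra ℚ k] {π : A →+* k} (hπ : ∀ a : A, a ∈ IsLocalRing.maximalIdeal A → π a = 0)
  (F₀ F₀' : IntermediateField ℚ (LaurentSeries ℚ))

/-- A rational pair is transported. -/
theorem tPair_qA {φL : laurentBaseChange L F₀ →ₐ[L] laurentBaseChange L F₀'}
    {φk : laurentBaseChange k F₀ →ₐ[k] laurentBaseChange k F₀'} {f : F₀} {g : F₀'}
    (hL : φL (emb L F₀ f) = emb L F₀' g) (hk : φk (emb k F₀ f) = emb k F₀' g) :
    TPair π φL φk (qA A π hπ (f : LaurentSeries ℚ)) (qA A π hπ (g : LaurentSeries ℚ)) := by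
  have m1 : aIota A (qA A π hπ (f : LaurentSeries ℚ)) ∈ laurentBaseChange L F₀ := by
    rw [aIota_qA]; exact coeffEmb_mem_laurentBaseChange L f.2
  have m1' : aIota A (qA A π hπ (g : LaurentSeries ℚ)) ∈ laurentBaseChange L F₀' := by
    rw [aIota_qA]; exact coeffEmb_mem_laurentBaseChange L g.2
  have m2 : aRed π (qA A π hπ (f : LaurentSeries ℚ)) ∈ laurentBaseChange k F₀ := by
    rw [aRed_qA]; exact coeffEmb_mem_laurentBaseChange k f.2
  have m2' : aRed π (qA A π hπ (g : LaurentSeries ℚ)) ∈ laurentBaseChange k F₀' := by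
    rw [aRed_qA]; exact coeffEmb_mem_laurentBaseChange k g.2
  refine ⟨m1, m1', m2, m2', ?_, ?_⟩
  · have e : (⟨aIota A (qA A π hπ (f : LaurentSeries ℚ)), m1⟩ : laurentBaseChange L F₀) =
        emb L F₀ f := Subtype.ext (aIota_qA A π hπ _)
    rw [e, hL]
    exact Subtype.ext (aIota_qA A π hπ _).symm
  · have e : (⟨aRed π (qA A π hπ (f : LaurentSeries ℚ)), m2⟩ : laurentBaseChange k F₀) =
        emb k F₀ f := Subtype.ext (aRed_qA A π hπ _)
    rw [e, hk]
    exact Subtype.ext (aRed_qA A π hπ _).symm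

variable {F₀ F₀'} {n : ℕ}

/-- **Rational maps are Gauss compatible** (`Jac.Spec.ResCompat`): source a `RedSetup` extending
the Gauss constant reduction of rational orthonormal data, target any Gauss constant reduction. -/
theorem resCompat_of_rational (hπs : Function.Surjective π)
    (D : OrthoData A π (laurentBaseChange L F₀) (laurentBaseChange k F₀) n)
    (hDx : ∃ f : F₀, D.x = qA A π hπ (f : LaurentSeries ℚ))
    (hDm : ∀ i, ∃ f : F₀, D.m i = qA A π hπ (f : LaurentSeries ℚ))
    (R : Red.RedSetup (F := laurentBaseChange L F₀) (Ft := laurentBaseChange k F₀) A π)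
    (hR : R.toConstRed = D.constRed hπ hπs)
    (S' : ConstRed (F := laurentBaseChange L F₀') (Ft := laurentBaseChange k F₀') A π)
    (hS' : IsGauss S')
    (φL : laurentBaseChange L F₀ →ₐ[L] laurentBaseChange L F₀')
    (φk : laurentBaseChange k F₀ →ₐ[k] laurentBaseChange k F₀')
    (hφ : ∀ f : F₀, ∃ g : F₀', φL (emb L F₀ f) = emb L F₀' g ∧ φk (emb k F₀ f) = emb k F₀' g) :
    Jac.Spec.ResCompat R S' φL φk := by
  choose φ₀ hφL hφk using hφ
  obtain ⟨fx, hfx⟩ := hDx
  choose fm hfm using hDm
  have hx : TPair π φL φk D.x (qA A π hπ ((φ₀ fx : F₀') : LaurentSeries ℚ)) := by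
    rw [hfx]; exact tPair_qA hπ F₀ F₀' (hφL fx) (hφk fx)
  have hm : ∀ i, TPair π φL φk (D.m i) (qA A π hπ ((φ₀ (fm i) : F₀') : LaurentSeries ℚ)) :=
    fun i => by rw [hfm i]; exact tPair_qA hπ F₀ F₀' (hφL (fm i)) (hφk (fm i))
  have key : ∀ C : ConstRed (F := laurentBaseChange L F₀) (Ft := laurentBaseChange k F₀) A π,
      C = D.constRed hπ hπs →
      ∃ hmem : ∀ y : laurentBaseChange L F₀, y ∈ C.O → φL y ∈ S'.O,
        ∀ (y : laurentBaseChange L F₀) (hy : y ∈ C.O),
          S'.res ⟨φL y, hmem y hy⟩ = φk (C.res ⟨y, hy⟩) := by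
    rintro _ rfl
    refine ⟨fun y hy => (map_mem_and_res D hπ S' hS' φL φk hx hm y hy).1, fun y hy => ?_⟩
    exact (map_mem_and_res D hπ S' hS' φL φk hx hm y hy).2
  obtain ⟨hmem, hres⟩ := key R.toConstRed hR
  exact ⟨hmem, hres⟩

end Rational

section Setup

variable {L : Type*} [Field L] [Algebra ℚ L] [IsAlgClosed L] {k : Type*} [Field k] [Algebra ℚ k]
  [IsAlgClosed k] (ι₀ : k →+* L) {A : ValuationSubring L} {π : A →+* k}
  (hπ : ∀ a : A, a ∈ IsLocalRing.maximalIdeal A → π a = 0) (hπs : Function.Surjective π)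
  (F₀ : IntermediateField ℚ (LaurentSeries ℚ)) (x₀ : F₀) {n : ℕ}

omit [IsAlgClosed L] [IsAlgClosed k] in
theorem bcHom_emb (f : F₀) : Jac.Descent.bcHom ι₀ F₀ (emb k F₀ f) = emb L F₀ f :=
  Subtype.ext (Jac.Descent.coeffMap_coeffEmb_hom ι₀ _)

variable {F₀ x₀}

omit [IsAlgClosed L] [IsAlgClosed k] in
include ι₀ in
/-- The image of `x₀` is a separating variable of degree `n` over `L` as well. -/
theorem isSepVarS_emb (hk : IsSepVarS k (emb k F₀ x₀) n) : IsSepVarS L (emb L F₀ x₀) n := by
  have h := Jac.Descent.isSepVarS_bcHom ι₀ hk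
  rwa [bcHom_emb] at h

include ι₀ in
/-- **Genus equality** for the two base changes, given a constant reduction. -/
theorem genusFF_eq (hk : IsSepVarS k (emb k F₀ x₀) n)
    (C : ConstRed (F := laurentBaseChange L F₀) (Ft := laurentBaseChange k F₀) A π)
    (hπs : Function.Surjective π) :
    genusFF k (laurentBaseChange k F₀) = genusFF L (laurentBaseChange L F₀) := by
  have hL := isSepVarS_emb ι₀ hk
  have hP := hasPrincipalDivisors_S hk
  have hPL := hasPrincipalDivisors_S hL
  have hF := riemannPkg hL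
  have hFt := riemannPkg hk
  have : Infinite k := IsAlgClosed.instInfinite
  refine le_antisymm (C.genusFF_le hπs hF hFt) ?_
  refine Jac.Descent.genusFF_laurentBaseChange_le ι₀ F₀ hFt hF (emb k F₀ x₀) n hk.pos
    (Good.degree_poleDiv_of_isSepVarS hk) ?_
  rw [bcHom_emb]
  exact Good.degree_poleDiv_of_isSepVarS hL

include ι₀ in
/-- **The generic Gauss `RedSetup`.** -/
theorem exists_gaussRedSetup (hk : IsSepVarS k (emb k F₀ x₀) n) :
    ∃ (D : OrthoData A π (laurentBaseChange L F₀) (laurentBaseChange k F₀) n)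
      (R : Red.RedSetup (F := laurentBaseChange L F₀) (Ft := laurentBaseChange k F₀) A π),
      D.x = qA A π hπ (x₀ : LaurentSeries ℚ) ∧
        (∀ i, ∃ f : F₀, D.m i = qA A π hπ (f : LaurentSeries ℚ)) ∧
          R.toConstRed = D.constRed hπ hπs := by
  have hL := isSepVarS_emb ι₀ hk
  obtain ⟨D, hDx, hDm⟩ := exists_qOrthoData A π hπ F₀ x₀ hk.toIsSepVar hL.finite
    hL.toIsSepVar.finrank_eq.le
  have hF := riemannPkg hL
  have hFt := riemannPkg hk
  have : Infinite k := IsAlgClosed.instInfinite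
  have hg := genusFF_eq ι₀ hk (D.constRed hπ hπs) hπs
  obtain ⟨R, hR⟩ := ConstRed.exists_redSetup (D.constRed hπ hπs) hπs hF hFt hg
  exact ⟨D, R, hDx, hDm, hR⟩

include ι₀ in
/-- **Injectivity on torsion** of the reduction map of any `RedSetup` for the two base changes. -/
theorem eq_zero_of_torsion (hk : IsSepVarS k (emb k F₀ x₀) n) (hA : Red.IsRankOne A)
    (R : Red.RedSetup (F := laurentBaseChange L F₀) (Ft := laurentBaseChange k F₀) A π)
    (hπs : Function.Surjective π)
    (x : Pic0 L (laurentBaseChange L F₀)) (htors : ∃ m : ℕ, m ≠ 0 ∧ m • x = 0)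
    (hx : Jac.Spec.redPic0 R x = 0) : x = 0 := by
  have hL := isSepVarS_emb ι₀ hk
  have : CharZero k := algebraRat.charZero k
  exact Jac.Spec.eq_zero_of_torsion_of_redPic0_eq_zero R inferInstance inferInstance hA
    (riemannPkg hL) (riemannPkg hk) (genusFF_eq ι₀ hk R.toConstRed hπs) x htors hx

end Setup

end Fermat.Agent.DS.J1Spec
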