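import Mathlib
import Fermat.Agent.DS.J1Spec.Generic
import Fermat.Agent.Hecke.HeckeDegrees

/-!
# Programme III (J1-PORT, Spec): degrees of rational maps do not depend on the constant field

`F₀, F₀' ⊆ ℚ((q))`, `k ⊆ L` (`ι₀ : k →+* L`), `φk : F₀ ⊗ k →ₐ[k] F₀' ⊗ k`, `φL : F₀ ⊗ L →ₐ[L] F₀' ⊗ L`
with `φk (x₀) = y₀`, `φL (x₀) = y₀` for rational elements `x₀ ∈ F₀`, `y₀ ∈ F₀'`, `x₀` a separating
variable of `F₀ ⊗ k` and `F₀' ⊗ k` finite over `k(y₀)`.  Then
`finrankAlong L φL = finrankAlong k φk` (`finrankAlong_eq_of_rational`): the two degree hypotheses of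
`redPic0_correspondence_of_resCompat` hold for all rational correspondences.
-/

set_option autoImplicit false

namespace Fermat.Agent.DS.J1Spec

open ModularCurve AlgebraicCurve IntermediateField Fermat.Agent Fermat.Agent.FF Fermat.Agent.X0

variable {L : Type*} [Field L] [Algebra ℚ L] {k : Type*} [Field k] [Algebra ℚ k] (ι₀ : k →+* L)
  {F₀ F₀' : IntermediateField ℚ (LaurentSeries ℚ)} {x₀ : F₀} {y₀ : F₀'} {n : ℕ}

include ι₀ in
/-- **Degree invariance for rational maps.** -/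
theorem finrankAlong_eq_of_rational (hk : IsSepVarS k (emb k F₀ x₀) n)
    (φL : laurentBaseChange L F₀ →ₐ[L] laurentBaseChange L F₀')
    (φk : laurentBaseChange k F₀ →ₐ[k] laurentBaseChange k F₀')
    (hφL : φL (emb L F₀ x₀) = emb L F₀' y₀) (hφk : φk (emb k F₀ x₀) = emb k F₀' y₀)
    [FiniteDimensional k⟮emb k F₀' y₀⟯ (laurentBaseChange k F₀')] :
    finrankAlong L φL = finrankAlong k φk := by
  have hL := isSepVarS_emb ι₀ hk
  have h1 := Hecke.Deg.finrank_mul_finrankAlong φk (emb k F₀ x₀)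
  have h2 := Hecke.Deg.finrank_mul_finrankAlong φL (emb L F₀ x₀)
  rw [hφk, hk.toIsSepVar.finrank_eq] at h1
  rw [hφL, hL.toIsSepVar.finrank_eq] at h2
  have hy : Transcendental k (emb k F₀' y₀) := by
    rw [← hφk]
    intro halg
    exact hk.toIsSepVar.transcendental ((isAlgebraic_algHom_iff φk φk.injective).mp halg)
  have h3 := (Jac.Descent.constExt_bcHom ι₀ F₀').finrank_adjoin_simple_eq hy
  rw [bcHom_emb] at h3
  have hn : 0 < n := hk.pos
  have : n * finrankAlong L φL = n * finrankAlong k φk := by rw [h1, h2, h3.2]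
  exact Nat.eq_of_mul_eq_mul_left hn this

end Fermat.Agent.DS.J1Spec
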