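import Mathlib
import Fermat.Agent.Jac.Spec.CorrRed
import Fermat.Agent.Jac.Spec.RedPic0
import Fermat.Agent.Hecke.ESConstancy

/-!
# Programme III (J1-PORT, Spec): equivariance of the reduction map on `Pic⁰`, generic forms

`R` a `Red.RedSetup` of `F/K` onto `Ft/k`.

* `redPic0_correspondence_of_resCompat` : `redPic0 R` commutes with the Prelude correspondence
  `Pic0.correspondence φ ψ` (`= ψ_* φ^*`) as soon as `φ`, `ψ` are `ResCompat` with `φt`, `ψt`
  (Pic⁰-level form of `Jac.Spec.mapDomain_correspondence`);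
* `redPic0_smul_of_resCompat` : `redPic0 R (σ • x) = σt • redPic0 R x` for automorphisms
  `σ : F ≃ₐ[K] F`, `σt : Ft ≃ₐ[k] Ft` which are `ResCompat` (diamond operators).
-/

set_option autoImplicit false

namespace Fermat.Agent.DS.J1Spec

open AlgebraicCurve Fermat.Agent Fermat.Agent.Red Fermat.Agent.Jac.Spec

section Corr

variable {K F F' k Ft Ft' : Type*} [Field K] [Field F] [Field F'] [Algebra K F] [Algebra K F']
  [Field k] [Field Ft] [Field Ft'] [Algebra k Ft] [Algebra k Ft']
  {A : ValuationSubring K} {π : A →+* k}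
  [HasPrincipalDivisors K F] [HasPrincipalDivisors K F'] [HasPrincipalDivisors k Ft]
  [HasPrincipalDivisors k Ft']
  (R : Red.RedSetup (F := F) (Ft := Ft) A π) (C' : Val.ConstRed (F := F') (Ft := Ft') A π)
  (φ ψ : F →ₐ[K] F') (φt ψt : Ft →ₐ[k] Ft')
  (hφi : φ.toRingHom.IsIntegral) (hψi : ψ.toRingHom.IsIntegral)
  (hφti : φt.toRingHom.IsIntegral) (hψti : ψt.toRingHom.IsIntegral)

/-- **`redPic0 R` commutes with a correspondence whose two legs are compatible with the
reductions.** -/
theorem redPic0_correspondence_of_resCompat (hF : RiemannPkg K F)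
    (hdegt : ∀ Q : Place k Ft, Q.deg = 1)
    (hφ : ResCompat R C' φ φt) (hψ : ResCompat R C' ψ ψt)
    (hFI : FundamentalIdentityAlong K φ hφi) (hFIt : FundamentalIdentityAlong k φt hφti)
    (hfin : FiniteAlong K ψ) (hN : NormFormulaAlong K ψ hfin)
    (hfint : FiniteAlong k ψt) (hNt : NormFormulaAlong k ψt hfint)
    (hdegψ : finrankAlong K ψ ≤ finrankAlong k ψt)
    (hdegφ : finrankAlong K φ = finrankAlong k φt) (x : Pic0 K F) :
    redPic0 R (Pic0.correspondence φ ψ hφi hψi hFI hfin hN x) =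
      Pic0.correspondence φt ψt hφti hψti hFIt hfint hNt (redPic0 R x) := by
  obtain ⟨D, rfl⟩ := Pic0.mk_surjective x
  rw [Pic0.correspondence_mk, redPic0_mk, redPic0_mk, Pic0.correspondence_mk]
  congr 1
  apply Subtype.ext
  exact mapDomain_correspondence R C' φ ψ φt ψt hφi hψi hφti hψti hF hdegt hφ hψ hFI hFIt hfin hN
    hfint hNt hdegψ hdegφ D D.2

end Corr

section Aut

variable {K F k Ft : Type*} [Field K] [Field F] [Algebra K F] [Field k] [Field Ft] [Algebra k Ft]
  {A : ValuationSubring K} {π : A →+* k}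
  [HasPrincipalDivisors K F] [HasPrincipalDivisors k Ft]
  (R : Red.RedSetup (F := F) (Ft := Ft) A π)

/-- `σ • div f = div (σ f)`. -/
theorem smul_divOf (σ : F ≃ₐ[K] F) (f : F) : σ • divOf K f = divOf K (σ f) := by
  symm
  apply divOf_eq_of_forall
  intro w
  rw [Divisor.smul_apply, divOf_apply]
  have h := Place.ord_smul σ (σ⁻¹ • w) f
  rw [smul_inv_smul] at h
  exact h.symm

omit [HasPrincipalDivisors K F] in
/-- The action of an automorphism preserves effectivity. -/
theorem smul_nonneg (σ : F ≃ₐ[K] F) {D : Divisor K F} (hD : 0 ≤ D) : 0 ≤ σ • D := by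
  intro w
  rw [Finsupp.zero_apply, Divisor.smul_apply]
  exact hD _

/-- **Reduction of places commutes with compatible automorphisms on divisors of degree zero.** -/
theorem mapDomain_smul (hF : RiemannPkg K F) (hdegt : ∀ Q : Place k Ft, Q.deg = 1)
    (σ : F ≃ₐ[K] F) (σt : Ft ≃ₐ[k] Ft)
    (hσ : ResCompat R R.toConstRed (σ : F →ₐ[K] F) (σt : Ft →ₐ[k] Ft))
    (D : Divisor K F) (hD : Divisor.degree D = 0) :
    Finsupp.mapDomain R.r (σ • D) = σt • Finsupp.mapDomain R.r D := by
  have key := Hecke.eq_of_eq_on_principal hF hdegt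
    ((redDiv R).comp (DistribSMul.toAddMonoidHom (Divisor K F) σ))
    ((DistribSMul.toAddMonoidHom (Divisor k Ft) σt).comp (redDiv R))
    (fun D hD => ?_) (fun D hD => ?_) 1 (fun D => ?_) (fun D => ?_)
    (fun f hf => ?_) D hD
  · simpa using key
  · rw [AddMonoidHom.comp_apply, redDiv_apply]
    exact mapDomain_nonneg' R.r _ (smul_nonneg σ hD)
  · rw [AddMonoidHom.comp_apply, redDiv_apply]
    exact smul_nonneg σt (mapDomain_nonneg' R.r _ hD)
  · rw [AddMonoidHom.comp_apply, redDiv_apply, degree_mapDomain, one_mul]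
    exact Divisor.degree_smul σ D
  · rw [AddMonoidHom.comp_apply, redDiv_apply, one_mul]
    exact (Divisor.degree_smul σt _).trans (degree_mapDomain R D)
  · rw [AddMonoidHom.comp_apply, AddMonoidHom.comp_apply, redDiv_apply, redDiv_apply]
    show Finsupp.mapDomain R.r (σ • divOf K f) = σt • Finsupp.mapDomain R.r (divOf K f)
    obtain ⟨c, hc, hmem, hres⟩ := Red.NormalForm.exists_smul_mem R hf
    rw [← divOf_smul c hc f]
    set y : R.O := ⟨c • f, hmem⟩ with hy
    have hσmem : σ (y : F) ∈ R.O := hσ.mem _ y.2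
    have hσres : R.res ⟨σ (y : F), hσmem⟩ = σt (R.res y) := hσ.res _ y.2
    have hσres0 : R.res ⟨σ (y : F), hσmem⟩ ≠ 0 := by
      rw [hσres]; exact (map_ne_zero σt).mpr hres
    have h1 := mapDomain_divOf_of_res_ne_zero R ⟨σ (y : F), hσmem⟩ hσres0
    have h2 := mapDomain_divOf_of_res_ne_zero R y hres
    show Finsupp.mapDomain R.r (σ • divOf K (y : F)) = σt • Finsupp.mapDomain R.r (divOf K (y : F))
    rw [smul_divOf, h2, smul_divOf, ← hσres]
    exact h1

/-- **`redPic0 R` commutes with compatible automorphisms** (diamond operators). -/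
theorem redPic0_smul_of_resCompat (hF : RiemannPkg K F) (hdegt : ∀ Q : Place k Ft, Q.deg = 1)
    (σ : F ≃ₐ[K] F) (σt : Ft ≃ₐ[k] Ft)
    (hσ : ResCompat R R.toConstRed (σ : F →ₐ[K] F) (σt : Ft →ₐ[k] Ft)) (x : Pic0 K F) :
    redPic0 R (σ • x) = σt • redPic0 R x := by
  obtain ⟨D, rfl⟩ := Pic0.mk_surjective x
  rw [Pic0.smul_mk, redPic0_mk, redPic0_mk, Pic0.smul_mk]
  congr 1
  apply Subtype.ext
  exact mapDomain_smul R hF hdegt σ σt hσ D D.2

end Aut

end Fermat.Agent.DS.J1Spec
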