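import Mathlib
import Fermat.Agent.DS.J1Spec.Generic
import Fermat.Agent.DS.J1Spec.Equivariance

/-!
# Programme III (J1-PORT, Spec): the generic specialisation package

`k ⊆ L` algebraically closed fields of characteristic zero (`ι₀ : k →+* L`), `A ⊆ L` a rank-one
valuation subring with residue map `π : A → k` (surjective, kernel the maximal ideal).  For ANY
`F₀ : IntermediateField ℚ (LaurentSeries ℚ)` and `x₀ ∈ F₀` whose image is a separating variable of
`laurentBaseChange k F₀ / k`:

* `exists_gaussConstRed` : a Gauss constant reduction of `laurentBaseChange L F₀` onto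
  `laurentBaseChange k F₀`;
* **`exists_specPackage`** : a `Red.RedSetup R` whose constant reduction is Gauss, whose reduction
  map `redPic0 R : Pic⁰(F₀ ⊗ L) → Pic⁰(F₀ ⊗ k)` is injective on torsion, and such that EVERY pair
  of algebra maps `(φL, φk)` to another field `F₀'` induced by a common map on rational elements is
  `Jac.Spec.ResCompat` for every Gauss constant reduction of the target.  Together with
  `redPic0_correspondence_of_resCompat` and `redPic0_smul_of_resCompat` this gives the equivariance
  of `redPic0 R` for all rational correspondences and automorphisms (Hecke, diamond, ...);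
* `exists_specData_complex` : the instance `(L, k) = (ℂ, ℚ̄)` of `(A, π)`.
-/

set_option autoImplicit false

namespace Fermat.Agent.DS.J1Spec

open ModularCurve AlgebraicCurve Fermat.Agent Fermat.Agent.Val Fermat.Agent.FF
  Fermat.Agent.Jac.RedHecke

variable {L : Type*} [Field L] [Algebra ℚ L] [IsAlgClosed L] {k : Type*} [Field k] [Algebra ℚ k]
  [IsAlgClosed k] (ι₀ : k →+* L) {A : ValuationSubring L} {π : A →+* k}
  (hπ : ∀ a : A, a ∈ IsLocalRing.maximalIdeal A → π a = 0) (hπs : Function.Surjective π)
  {F₀ : IntermediateField ℚ (LaurentSeries ℚ)} {x₀ : F₀} {n : ℕ}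

omit [IsAlgClosed L] [IsAlgClosed k] in
include ι₀ hπ hπs in
/-- A Gauss constant reduction of `F₀ ⊗ L` onto `F₀ ⊗ k`. -/
theorem exists_gaussConstRed (hk : IsSepVarS k (emb k F₀ x₀) n) :
    ∃ S : ConstRed (F := laurentBaseChange L F₀) (Ft := laurentBaseChange k F₀) A π,
      IsGauss S := by
  have hL := isSepVarS_emb ι₀ hk
  obtain ⟨D, -, -⟩ := exists_qOrthoData A π hπ F₀ x₀ hk.toIsSepVar hL.finite
    hL.toIsSepVar.finrank_eq.le
  exact ⟨D.constRed hπ hπs, isGauss_constRed D hπ hπs⟩

include ι₀ hπ hπs in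
/-- **The generic specialisation package.** -/
theorem exists_specPackage (hA : Red.IsRankOne A) (hk : IsSepVarS k (emb k F₀ x₀) n) :
    ∃ R : Red.RedSetup (F := laurentBaseChange L F₀) (Ft := laurentBaseChange k F₀) A π,
      IsGauss R.toConstRed ∧
      (∀ x : Pic0 L (laurentBaseChange L F₀), (∃ m : ℕ, m ≠ 0 ∧ m • x = 0) →
        Jac.Spec.redPic0 R x = 0 → x = 0) ∧
      ∀ (F₀' : IntermediateField ℚ (LaurentSeries ℚ))
        (S' : ConstRed (F := laurentBaseChange L F₀') (Ft := laurentBaseChange k F₀') A π),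
        IsGauss S' →
        ∀ (φL : laurentBaseChange L F₀ →ₐ[L] laurentBaseChange L F₀')
          (φk : laurentBaseChange k F₀ →ₐ[k] laurentBaseChange k F₀'),
          (∀ f : F₀, ∃ g : F₀', φL (emb L F₀ f) = emb L F₀' g ∧ φk (emb k F₀ f) = emb k F₀' g) →
          Jac.Spec.ResCompat R S' φL φk := by
  obtain ⟨D, R, hDx, hDm, hR⟩ := exists_gaussRedSetup ι₀ hπ hπs hk
  refine ⟨R, ?_, fun x htors hx => eq_zero_of_torsion ι₀ hk hA R hπs x htors hx,
    fun F₀' S' hS' φL φk hφ => ?_⟩
  · rw [hR]; exact isGauss_constRed D hπ hπs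
  · exact resCompat_of_rational hπ hπs D ⟨x₀, hDx⟩ hDm R hR S' hS' φL φk hφ

/-- The valuation subring of `ℂ` with residue field `ℚ̄` used for the specialisation. -/
theorem exists_specData_complex :
    ∃ (A : ValuationSubring ℂ) (π : A →+* AlgebraicClosure ℚ),
      Function.Surjective π ∧ (∀ a : A, a ∈ IsLocalRing.maximalIdeal A → π a = 0) ∧
        Red.IsRankOne A := by
  obtain ⟨A, π, hπs, hker, hA⟩ := Jac.Spec.exists_valuationSubring_complex
  exact ⟨A, π, hπs, fun a ha => (hker a).mpr ha, hA⟩

end Fermat.Agent.DS.J1Spec
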