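import Mathlib
import Fermat.Agent.DS.J1Spec.Main
import Fermat.Agent.DS.J1Spec.Degree
import Fermat.Agent.DS.J1Spec.Semilinear
import Fermat.Agent.Hecke.HeckeInputs

/-!
# Programme III (J1-PORT, Spec): the specialisation map commutes with every rational correspondence

`k ⊆ L` algebraically closed of characteristic zero, `A ⊆ L` a rank one valuation subring with
residue map `π : A → k`.  `F₀, F₁ ⊆ ℚ((q))` with rational separating variables `x₀`, `x₁` (over `k`).

* `IsRationalPair φL φk` : the maps `φL : F₀ ⊗ L → F₁ ⊗ L`, `φk : F₀ ⊗ k → F₁ ⊗ k` are given by the same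
  rule on rational elements;
* `RationalPair.inputs` : all the inputs of the Prelude's `Pic0.correspondence` hold for rational
  pairs, over `L` and over `k`;
* **`exists_specPackage_corr`** : a `RedSetup R` for `(F₀ ⊗ L, F₀ ⊗ k)`, Gauss, with
  `Jac.Spec.redPic0 R` injective on torsion, such that for ALL rational pairs `(φL, φk)`, `(ψL, ψk)`
  towards `F₁` (and all proofs of the side conditions)
  `redPic0 R ∘ Pic0.correspondence φL ψL = Pic0.correspondence φk ψk ∘ redPic0 R`.

For `X₁(M)`: `F₀ = K1 M`, `F₁ = K1Lev M ℓ`, `φ = α` (inclusion), `ψ = β` (`q ↦ q^ℓ`) gives the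
equivariance of the specialisation for `T_ℓ`; `F₁ = F₀`, `φ = id`, `ψ = ⟨d⟩` for the diamonds.
-/

set_option autoImplicit false
set_option linter.unusedSectionVars false

namespace Fermat.Agent.DS.J1Spec

open ModularCurve AlgebraicCurve IntermediateField Fermat.Agent Fermat.Agent.Val Fermat.Agent.FF
  Fermat.Agent.Jac.RedHecke Fermat.Agent.Hecke

section Pair

variable {L : Type*} [Field L] [Algebra ℚ L] {k : Type*} [Field k] [Algebra ℚ k]
  {F₀ F₁ : IntermediateField ℚ (LaurentSeries ℚ)}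

/-- `φL` and `φk` are given by the same rule on rational elements. -/
def IsRationalPair (φL : laurentBaseChange L F₀ →ₐ[L] laurentBaseChange L F₁)
    (φk : laurentBaseChange k F₀ →ₐ[k] laurentBaseChange k F₁) : Prop :=
  ∀ f : F₀, ∃ g : F₁, φL (emb L F₀ f) = emb L F₁ g ∧ φk (emb k F₀ f) = emb k F₁ g

theorem emb_add (K : Type*) [Field K] [Algebra ℚ K] (F : IntermediateField ℚ (LaurentSeries ℚ))
    (f g : F) : emb K F (f + g) = emb K F f + emb K F g :=
  Subtype.ext (map_add (coeffEmb K) _ _)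

theorem emb_inv (K : Type*) [Field K] [Algebra ℚ K] (F : IntermediateField ℚ (LaurentSeries ℚ))
    (f : F) : emb K F f⁻¹ = (emb K F f)⁻¹ :=
  Subtype.ext (map_inv₀ (coeffEmb K) _)

theorem emb_neg (K : Type*) [Field K] [Algebra ℚ K] (F : IntermediateField ℚ (LaurentSeries ℚ))
    (f : F) : emb K F (-f) = -emb K F f :=
  Subtype.ext (map_neg (coeffEmb K) _)

theorem emb_algebraMap (K : Type*) [Field K] [Algebra ℚ K]
    (F : IntermediateField ℚ (LaurentSeries ℚ)) (r : ℚ)
    (hy : algebraMap ℚ (LaurentSeries ℚ) r ∈ F) :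
    emb K F ⟨algebraMap ℚ (LaurentSeries ℚ) r, hy⟩ =
      algebraMap K (laurentBaseChange K F) (algebraMap ℚ K r) := by
  apply Subtype.ext
  rw [IntermediateField.coe_algebraMap_apply]
  show coeffEmb K (algebraMap ℚ (LaurentSeries ℚ) r) = _
  rw [coeffEmb, Fermat.Agent.Jac.Descent.coeffMap_algebraMap_hom]

/-- **Rationality can be checked on generators**: if `F₀ = ℚ(S)` and the two maps are given by a
common rule on (the images of) the elements of `S`, they form a rational pair. -/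
theorem isRationalPair_of_generators {S : Set (LaurentSeries ℚ)}
    (hS : F₀ = IntermediateField.adjoin ℚ S)
    (φL : laurentBaseChange L F₀ →ₐ[L] laurentBaseChange L F₁)
    (φk : laurentBaseChange k F₀ →ₐ[k] laurentBaseChange k F₁)
    (h : ∀ (s : LaurentSeries ℚ) (hs : s ∈ F₀), s ∈ S →
      ∃ g : F₁, φL (emb L F₀ ⟨s, hs⟩) = emb L F₁ g ∧ φk (emb k F₀ ⟨s, hs⟩) = emb k F₁ g) :
    IsRationalPair φL φk := by
  intro f
  obtain ⟨f, hf⟩ := f
  have hf' : f ∈ IntermediateField.adjoin ℚ S := hS ▸ hf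
  have key : ∀ (y : LaurentSeries ℚ), y ∈ IntermediateField.adjoin ℚ S → ∀ hy : y ∈ F₀,
      ∃ g : F₁, φL (emb L F₀ ⟨y, hy⟩) = emb L F₁ g ∧ φk (emb k F₀ ⟨y, hy⟩) = emb k F₁ g := by
    intro y hy
    induction hy using IntermediateField.adjoin_induction with
    | mem x hx => exact fun hx' => h x hx' hx
    | algebraMap r =>
      intro hy
      refine ⟨⟨algebraMap ℚ (LaurentSeries ℚ) r, F₁.algebraMap_mem r⟩, ?_, ?_⟩
      · rw [emb_algebraMap, emb_algebraMap, AlgHom.commutes]
      · rw [emb_algebraMap, emb_algebraMap, AlgHom.commutes]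
    | add x y hx hy ihx ihy =>
      intro hxy
      have hx' : x ∈ F₀ := hS ▸ hx
      have hy' : y ∈ F₀ := hS ▸ hy
      obtain ⟨g₁, h1, h1'⟩ := ihx hx'
      obtain ⟨g₂, h2, h2'⟩ := ihy hy'
      have e : (⟨x + y, hxy⟩ : F₀) = ⟨x, hx'⟩ + ⟨y, hy'⟩ := rfl
      exact ⟨g₁ + g₂, by rw [e, emb_add, map_add, h1, h2, emb_add],
        by rw [e, emb_add, map_add, h1', h2', emb_add]⟩
    | inv x hx ihx =>
      intro hxi
      have hx' : x ∈ F₀ := hS ▸ hx
      obtain ⟨g₁, h1, h1'⟩ := ihx hx'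
      have e : (⟨x⁻¹, hxi⟩ : F₀) = (⟨x, hx'⟩ : F₀)⁻¹ := rfl
      exact ⟨g₁⁻¹, by rw [e, emb_inv, map_inv₀, h1, emb_inv],
        by rw [e, emb_inv, map_inv₀, h1', emb_inv]⟩
    | mul x y hx hy ihx ihy =>
      intro hxy
      have hx' : x ∈ F₀ := hS ▸ hx
      have hy' : y ∈ F₀ := hS ▸ hy
      obtain ⟨g₁, h1, h1'⟩ := ihx hx'
      obtain ⟨g₂, h2, h2'⟩ := ihy hy'
      have e : (⟨x * y, hxy⟩ : F₀) = ⟨x, hx'⟩ * ⟨y, hy'⟩ := rfl
      exact ⟨g₁ * g₂, by rw [e, emb_mul, map_mul, h1, h2, emb_mul],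
        by rw [e, emb_mul, map_mul, h1', h2', emb_mul]⟩
  exact key f hf' hf

end Pair

section Inputs

variable {K : Type*} [Field K] [Algebra ℚ K]
  {F₀ F₁ : IntermediateField ℚ (LaurentSeries ℚ)} {x₀ : F₀} {x₁ : F₁} {n n₁ : ℕ}

/-- A `K`-algebra map from `F₀ ⊗ K` to `F₁ ⊗ K` is finite. -/
theorem finiteAlong_of_isSepVarS (h₀ : IsSepVarS K (emb K F₀ x₀) n)
    (h₁ : IsSepVarS K (emb K F₁ x₁) n₁)
    (φ : laurentBaseChange K F₀ →ₐ[K] laurentBaseChange K F₁) : FiniteAlong K φ := by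
  haveI := h₁.finite
  exact finiteAlong_of_transcendental φ (emb K F₁ x₁) h₀.transcendental

/-- In characteristic zero it is separable. -/
theorem isSeparable_along (h₀ : IsSepVarS K (emb K F₀ x₀) n)
    (h₁ : IsSepVarS K (emb K F₁ x₁) n₁)
    (φ : laurentBaseChange K F₀ →ₐ[K] laurentBaseChange K F₁) :
    letI := algebraAlong φ
    Algebra.IsSeparable (laurentBaseChange K F₀) (laurentBaseChange K F₁) := by
  haveI : CharZero K := algebraRat.charZero K
  haveI : CharZero (laurentBaseChange K F₀) :=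
    charZero_of_injective_algebraMap (algebraMap K (laurentBaseChange K F₀)).injective
  exact isSeparable_along_of_charZero φ (finiteAlong_of_isSepVarS h₀ h₁ φ)

end Inputs

section Main

variable {L : Type*} [Field L] [Algebra ℚ L] [IsAlgClosed L] {k : Type*} [Field k] [Algebra ℚ k]
  [IsAlgClosed k] (ι₀ : k →+* L) {A : ValuationSubring L} {π : A →+* k}
  (hπ : ∀ a : A, a ∈ IsLocalRing.maximalIdeal A → π a = 0) (hπs : Function.Surjective π)
  {F₀ F₁ : IntermediateField ℚ (LaurentSeries ℚ)} {x₀ : F₀} {x₁ : F₁} {n n₁ : ℕ}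

include ι₀ in
omit [IsAlgClosed L] [IsAlgClosed k] in
/-- The degrees of a rational pair agree. -/
theorem IsRationalPair.finrankAlong_eq (hk : IsSepVarS k (emb k F₀ x₀) n)
    (hk₁ : IsSepVarS k (emb k F₁ x₁) n₁)
    {φL : laurentBaseChange L F₀ →ₐ[L] laurentBaseChange L F₁}
    {φk : laurentBaseChange k F₀ →ₐ[k] laurentBaseChange k F₁} (h : IsRationalPair φL φk) :
    finrankAlong L φL = finrankAlong k φk := by
  obtain ⟨y₀, hL, hK⟩ := h x₀
  have hy : Transcendental k (emb k F₁ y₀) := by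
    rw [← hK]
    intro halg
    exact hk.transcendental ((isAlgebraic_algHom_iff φk φk.injective).mp halg)
  haveI := hk₁.finite
  haveI : FiniteDimensional k⟮emb k F₁ y₀⟯ (laurentBaseChange k F₁) :=
    Fermat.Agent.X0.PrincipalDeg.finiteDimensional_adjoin_simple_of_transcendental
      (emb k F₁ x₁) (emb k F₁ y₀) hy
  exact finrankAlong_eq_of_rational ι₀ hk φL φk hL hK

include ι₀ hπ hπs in
/-- **The specialisation map commutes with every rational correspondence and every rational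
automorphism.**  One `RedSetup R` serves all targets `F₁` and all operators. -/
theorem exists_specPackage_corr (hA : Red.IsRankOne A) (hk : IsSepVarS k (emb k F₀ x₀) n) :
    ∃ R : Red.RedSetup (F := laurentBaseChange L F₀) (Ft := laurentBaseChange k F₀) A π,
      IsGauss R.toConstRed ∧
      (∀ x : Pic0 L (laurentBaseChange L F₀), (∃ m : ℕ, m ≠ 0 ∧ m • x = 0) →
        Jac.Spec.redPic0 R x = 0 → x = 0) ∧
      (∀ (F₁ : IntermediateField ℚ (LaurentSeries ℚ)) (x₁ : F₁) (n₁ : ℕ),
        IsSepVarS k (emb k F₁ x₁) n₁ →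
        ∀ [HasPrincipalDivisors L (laurentBaseChange L F₁)]
          [HasPrincipalDivisors k (laurentBaseChange k F₁)]
          (φL ψL : laurentBaseChange L F₀ →ₐ[L] laurentBaseChange L F₁)
          (φk ψk : laurentBaseChange k F₀ →ₐ[k] laurentBaseChange k F₁),
          IsRationalPair φL φk → IsRationalPair ψL ψk →
          ∀ (hφi : φL.toRingHom.IsIntegral) (hψi : ψL.toRingHom.IsIntegral)
            (hφti : φk.toRingHom.IsIntegral) (hψti : ψk.toRingHom.IsIntegral)
            (hFI : FundamentalIdentityAlong L φL hφi) (hFIt : FundamentalIdentityAlong k φk hφti)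
            (hfin : FiniteAlong L ψL) (hN : NormFormulaAlong L ψL hfin)
            (hfint : FiniteAlong k ψk) (hNt : NormFormulaAlong k ψk hfint)
            (x : Pic0 L (laurentBaseChange L F₀)),
            Jac.Spec.redPic0 R (Pic0.correspondence φL ψL hφi hψi hFI hfin hN x) =
              Pic0.correspondence φk ψk hφti hψti hFIt hfint hNt (Jac.Spec.redPic0 R x)) ∧
      ∀ (σL : laurentBaseChange L F₀ ≃ₐ[L] laurentBaseChange L F₀)
        (σk : laurentBaseChange k F₀ ≃ₐ[k] laurentBaseChange k F₀),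
        IsRationalPair (σL : laurentBaseChange L F₀ →ₐ[L] laurentBaseChange L F₀)
          (σk : laurentBaseChange k F₀ →ₐ[k] laurentBaseChange k F₀) →
        ∀ x : Pic0 L (laurentBaseChange L F₀),
          Jac.Spec.redPic0 R (σL • x) = σk • Jac.Spec.redPic0 R x ∧
          Jac.Spec.redPic0 R (SemilinearAut.ofAlgAut σL • x) =
            SemilinearAut.ofAlgAut σk • Jac.Spec.redPic0 R x := by
  obtain ⟨R, hG, htors, hcompat⟩ := exists_specPackage ι₀ hπ hπs hA hk
  have hL := isSepVarS_emb ι₀ hk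
  haveI := hasPrincipalDivisors_S hk
  haveI := hasPrincipalDivisors_S hL
  refine ⟨R, hG, htors, ?_, ?_⟩
  · intro F₁ x₁ n₁ hk₁ _ _ φL ψL φk ψk hφ hψ hφi hψi hφti hψti hFI hFIt hfin hN hfint hNt x
    obtain ⟨S', hS'⟩ := exists_gaussConstRed ι₀ hπ hπs hk₁
    exact redPic0_correspondence_of_resCompat R S' φL ψL φk ψk hφi hψi hφti hψti (riemannPkg hL)
      (fun Q => place_deg_eq_one hk Q) (hcompat F₁ S' hS' φL φk hφ) (hcompat F₁ S' hS' ψL ψk hψ)
      hFI hFIt hfin hN hfint hNt (hψ.finrankAlong_eq ι₀ hk hk₁).le (hφ.finrankAlong_eq ι₀ hk hk₁) x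
  · intro σL σk hσ x
    have hc := hcompat F₀ R.toConstRed hG (σL : laurentBaseChange L F₀ →ₐ[L] laurentBaseChange L F₀)
      (σk : laurentBaseChange k F₀ →ₐ[k] laurentBaseChange k F₀) hσ
    exact ⟨redPic0_smul_of_resCompat R (riemannPkg hL) (fun Q => place_deg_eq_one hk Q) σL σk hc x,
      redPic0_ofAlgAut_smul R hπs (riemannPkg hL) (riemannPkg hk) σL σk hc x⟩

end Main

end Fermat.Agent.DS.J1Spec
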