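import Mathlib
import Fermat.Agent.DS.J1Spec.RationalCorr

/-!
# Programme III (J1-PORT): base change of homomorphisms of subfields of `ℚ((q))`

`K ⊇ ℚ` a field, `F₀, F₁ ⊆ ℚ((q))`.  Every ring homomorphism `σ₀ : F₀ → F₁` (for instance a diamond
operator of `K1 M`, which is NOT induced by an operation on series) extends uniquely to a
`K`-algebra homomorphism `lbcHom K σ₀ : F₀ ⊗ K → F₁ ⊗ K` of the Laurent base changes with
`lbcHom K σ₀ (emb f) = emb (σ₀ f)` — linear disjointness of `K` and `F₀` in `K((q))`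
(`Jac.Descent.eq_zero_of_sum_coeffMap`): `K ⊗_ℚ F₀ ↪ K((q))` and `F₀ ⊗ K` is its fraction field.

* `linearIndependent_emb` : `ℚ`-linearly independent families of `F₁` stay `K`-linearly independent;
* `lbcHom`, `lbcHom_emb`, `coe_lbcHom_emb`, `algHom_ext_emb`, `lbcHom_id`, `lbcHom_comp`;
* `lbcRingEquiv K (σ₀ : F₀ ≃+* F₁)`, `lbcEquiv K (σ₀ : F₀ ≃ₐ[ℚ] F₁) : F₀ ⊗ K ≃ₐ[K] F₁ ⊗ K` with
  `lbcEquiv_emb`, `coe_lbcEquiv_emb`, `lbcEquiv_refl`, `lbcEquiv_symm`, `lbcEquiv_trans`;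
* `isRationalPair_lbcHom` : `(lbcHom L σ₀, lbcHom k σ₀)` is a rational pair.
-/

set_option autoImplicit false
set_option synthInstance.maxHeartbeats 400000

namespace Fermat.Agent.DS.J1Spec

open ModularCurve AlgebraicCurve IntermediateField TensorProduct Fermat.Agent

variable (K : Type*) [Field K] [Algebra ℚ K]
  {F₀ F₁ F₂ : IntermediateField ℚ (LaurentSeries ℚ)}

/-- **Linear disjointness**: a `ℚ`-linearly independent family of `F₁` stays `K`-linearly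
independent in `F₁ ⊗ K`. -/
theorem linearIndependent_emb {ι : Type*} (v : ι → F₁) (hv : LinearIndependent ℚ v) :
    LinearIndependent K (fun i => emb K F₁ (v i)) := by
  classical
  rw [linearIndependent_iff']
  intro s g hg i hi
  have hvs : LinearIndependent ℚ (fun j : s => v j) := hv.comp _ Subtype.val_injective
  rw [Fintype.linearIndependent_iff] at hvs
  have key := Fermat.Agent.Jac.Descent.eq_zero_of_sum_coeffMap (algebraMap ℚ K)
    (fun j : s => ((v j : F₁) : LaurentSeries ℚ)) (fun c' hc' => hvs c' ?_) (fun j : s => g j) ?_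
  · exact key ⟨i, hi⟩
  · apply Subtype.ext
    simp only [Algebra.smul_def]
    push_cast
    have e : ∀ c : ℚ, ((algebraMap ℚ F₁ c : F₁) : LaurentSeries ℚ) =
        algebraMap ℚ (LaurentSeries ℚ) c := fun c =>
      DFunLike.congr_fun (RingHom.ext_rat ((F₁.val : F₁ →+* LaurentSeries ℚ).comp
        (algebraMap ℚ F₁)) (algebraMap ℚ (LaurentSeries ℚ))) c
    simp only [e]
    exact hc'
  · have h1 := congrArg (fun x : laurentBaseChange K F₁ => (x : LaurentSeries K)) hg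
    simp only [Algebra.smul_def] at h1
    push_cast at h1
    rw [← Finset.sum_coe_sort] at h1
    exact h1

/-- the `ℚ`-algebra structure of `F₁ ⊗ K` through `K` (local instance of this file) -/
@[reducible] noncomputable def ratAlgebraLbc (F₁ : IntermediateField ℚ (LaurentSeries ℚ)) :
    Algebra ℚ (laurentBaseChange K F₁) :=
  ((algebraMap K (laurentBaseChange K F₁)).comp (algebraMap ℚ K)).toAlgebra

attribute [local instance] ratAlgebraLbc

noncomputable def embRingHom (F₁ : IntermediateField ℚ (LaurentSeries ℚ)) :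
    F₁ →+* laurentBaseChange K F₁ where
  toFun := emb K F₁
  map_one' := emb_one K F₁
  map_mul' := emb_mul K F₁
  map_zero' := Subtype.ext (map_zero (coeffEmb K))
  map_add' := emb_add K F₁

@[simp] theorem embRingHom_apply (f : F₁) : embRingHom K F₁ f = emb K F₁ f := rfl

noncomputable def embComp (σ₀ : F₀ →+* F₁) : F₀ →ₐ[ℚ] laurentBaseChange K F₁ :=
  ((embRingHom K F₁).comp σ₀).toRatAlgHom

@[simp] theorem embComp_apply (σ₀ : F₀ →+* F₁) (f : F₀) :
    embComp K σ₀ f = emb K F₁ (σ₀ f) := rfl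

noncomputable def lbcTensorMap (σ₀ : F₀ →+* F₁) :
    K ⊗[ℚ] F₀ →ₐ[K] laurentBaseChange K F₁ :=
  Algebra.TensorProduct.lift (Algebra.ofId K (laurentBaseChange K F₁)) (embComp K σ₀)
    (fun _ _ => Commute.all _ _)

theorem lbcTensorMap_tmul (σ₀ : F₀ →+* F₁) (a : K) (f : F₀) :
    lbcTensorMap K σ₀ (a ⊗ₜ f) = algebraMap K (laurentBaseChange K F₁) a * emb K F₁ (σ₀ f) := by
  rw [lbcTensorMap, Algebra.TensorProduct.lift_tmul]
  rfl

/-- **`K ⊗_ℚ F₀ → F₁ ⊗ K` is injective** (linear disjointness of `K` and `F₁` in `K((q))`). -/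
theorem lbcTensorMap_injective (σ₀ : F₀ →+* F₁) : Function.Injective (lbcTensorMap K σ₀) := by
  classical
  let b := Module.Free.chooseBasis ℚ F₀
  let B := Algebra.TensorProduct.basis K b
  have hv : LinearIndependent ℚ (fun i => σ₀ (b i)) :=
    b.linearIndependent.map' σ₀.toRatAlgHom.toLinearMap (LinearMap.ker_eq_bot.mpr σ₀.injective)
  have hli := linearIndependent_emb K _ hv
  refine LinearMap.injective_of_linearIndependent (f := (lbcTensorMap K σ₀).toLinearMap)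
    (v := B) B.span_eq ?_
  have e : ((lbcTensorMap K σ₀).toLinearMap ∘ B) = fun i => emb K F₁ (σ₀ (b i)) := by
    funext i
    show lbcTensorMap K σ₀ (B i) = _
    rw [Algebra.TensorProduct.basis_apply, lbcTensorMap_tmul, map_one, one_mul]
  rw [e]
  exact hli

/-- the algebra structure of `F₀ ⊗ K` over `K ⊗_ℚ F₀` (local to this file) -/
@[reducible] noncomputable def tensorAlgebraLbc (F₀ : IntermediateField ℚ (LaurentSeries ℚ)) :
    Algebra (K ⊗[ℚ] F₀) (laurentBaseChange K F₀) :=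
  (lbcTensorMap K (RingHom.id F₀)).toRingHom.toAlgebra

attribute [local instance] tensorAlgebraLbc

theorem algebraMap_tensor_apply (x : K ⊗[ℚ] F₀) :
    algebraMap (K ⊗[ℚ] F₀) (laurentBaseChange K F₀) x = lbcTensorMap K (RingHom.id F₀) x := rfl

theorem algebraMap_tensor_injective :
    Function.Injective (algebraMap (K ⊗[ℚ] F₀) (laurentBaseChange K F₀)) :=
  lbcTensorMap_injective K (RingHom.id F₀)

/-- every element of `F₀ ⊗ K` is a quotient of two elements of the image of `K ⊗_ℚ F₀` -/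
theorem exists_tensor_div (z : laurentBaseChange K F₀) :
    ∃ x y : K ⊗[ℚ] F₀, z = algebraMap (K ⊗[ℚ] F₀) (laurentBaseChange K F₀) x /
      algebraMap (K ⊗[ℚ] F₀) (laurentBaseChange K F₀) y := by
  have hle : Algebra.adjoin K (⇑(coeffEmb K) '' (F₀ : Set (LaurentSeries ℚ))) ≤
      ((lbcTensorMap K (RingHom.id F₀)).range).map (laurentBaseChange K F₀).val := by
    refine Algebra.adjoin_le ?_
    rintro _ ⟨f, hf, rfl⟩
    refine ⟨emb K F₀ ⟨f, hf⟩, ⟨1 ⊗ₜ ⟨f, hf⟩, ?_⟩, rfl⟩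
    show lbcTensorMap K (RingHom.id F₀) (1 ⊗ₜ ⟨f, hf⟩) = _
    rw [lbcTensorMap_tmul, map_one, one_mul]
    rfl
  obtain ⟨r, hr, s, hs, hz⟩ := IntermediateField.mem_adjoin_iff_div.mp z.2
  obtain ⟨_, ⟨x, rfl⟩, hx⟩ := hle hr
  obtain ⟨_, ⟨y, rfl⟩, hy⟩ := hle hs
  refine ⟨x, y, Subtype.ext ?_⟩
  rw [hz, ← hx, ← hy]
  rfl

theorem isFractionRing_tensor : IsFractionRing (K ⊗[ℚ] F₀) (laurentBaseChange K F₀) := by
  haveI : FaithfulSMul (K ⊗[ℚ] F₀) (laurentBaseChange K F₀) :=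
    (faithfulSMul_iff_algebraMap_injective _ _).mpr (algebraMap_tensor_injective K)
  exact IsFractionRing.of_field _ _ (exists_tensor_div K)

theorem isDomain_tensor : IsDomain (K ⊗[ℚ] F₀) :=
  (algebraMap_tensor_injective K (F₀ := F₀)).isDomain _

/-- `lbcTensorMap` as a ring homomorphism -/
noncomputable def lbcTensorRingHom (σ₀ : F₀ →+* F₁) : K ⊗[ℚ] F₀ →+* laurentBaseChange K F₁ :=
  (lbcTensorMap K σ₀).toRingHom

theorem lbcTensorRingHom_apply (σ₀ : F₀ →+* F₁) (x : K ⊗[ℚ] F₀) :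
    lbcTensorRingHom K σ₀ x = lbcTensorMap K σ₀ x := rfl

theorem lbcTensorRingHom_injective (σ₀ : F₀ →+* F₁) :
    Function.Injective (lbcTensorRingHom K σ₀) := lbcTensorMap_injective K σ₀

/-- the base change as a ring homomorphism -/
noncomputable def lbcRingHom (σ₀ : F₀ →+* F₁) :
    laurentBaseChange K F₀ →+* laurentBaseChange K F₁ :=
  haveI := isFractionRing_tensor K (F₀ := F₀)
  haveI := isDomain_tensor K (F₀ := F₀)
  IsFractionRing.lift (lbcTensorRingHom_injective K σ₀)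

theorem lbcRingHom_algebraMap (σ₀ : F₀ →+* F₁) (x : K ⊗[ℚ] F₀) :
    lbcRingHom K σ₀ (algebraMap (K ⊗[ℚ] F₀) (laurentBaseChange K F₀) x) =
      lbcTensorMap K σ₀ x := by
  haveI := isFractionRing_tensor K (F₀ := F₀)
  haveI := isDomain_tensor K (F₀ := F₀)
  exact IsFractionRing.lift_algebraMap (lbcTensorRingHom_injective K σ₀) x

/-- **The base change of a homomorphism** `σ₀ : F₀ → F₁` of subfields of `ℚ((q))` to
`F₀ ⊗ K → F₁ ⊗ K`. -/
noncomputable def lbcHom (σ₀ : F₀ →+* F₁) :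
    laurentBaseChange K F₀ →ₐ[K] laurentBaseChange K F₁ :=
  { lbcRingHom K σ₀ with
    commutes' := fun a => by
      have e : algebraMap K (laurentBaseChange K F₀) a =
          algebraMap (K ⊗[ℚ] F₀) (laurentBaseChange K F₀) (a ⊗ₜ 1) := by
        rw [algebraMap_tensor_apply, lbcTensorMap_tmul, map_one]
        show _ = _ * emb K F₀ 1
        rw [emb_one, mul_one]
      show lbcRingHom K σ₀ _ = _
      rw [e, lbcRingHom_algebraMap, lbcTensorMap_tmul, map_one, emb_one, mul_one] }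

/-- **Value on rational elements.** -/
theorem lbcHom_emb (σ₀ : F₀ →+* F₁) (f : F₀) :
    lbcHom K σ₀ (emb K F₀ f) = emb K F₁ (σ₀ f) := by
  have e : emb K F₀ f = algebraMap (K ⊗[ℚ] F₀) (laurentBaseChange K F₀) (1 ⊗ₜ f) := by
    rw [algebraMap_tensor_apply, lbcTensorMap_tmul, map_one, one_mul]
    rfl
  show lbcRingHom K σ₀ _ = _
  rw [e, lbcRingHom_algebraMap, lbcTensorMap_tmul, map_one, one_mul]

/-- **Extensionality**: two `K`-algebra maps out of `F₀ ⊗ K` which agree on the rational elements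
are equal. -/
theorem algHom_ext_emb {E : Type*} [Semiring E] [Algebra K E]
    {φ₁ φ₂ : laurentBaseChange K F₀ →ₐ[K] E}
    (h : ∀ f : F₀, φ₁ (emb K F₀ f) = φ₂ (emb K F₀ f)) : φ₁ = φ₂ :=
  IntermediateField.adjoin_algHom_ext K (by
    rintro _ ⟨f, hf, rfl⟩
    exact h ⟨f, hf⟩)

/-- coerced form of the value lemma -/
theorem coe_lbcHom_emb (σ₀ : F₀ →+* F₁) (f : F₀) :
    ((lbcHom K σ₀ ⟨coeffEmb K (f : LaurentSeries ℚ), coeffEmb_mem_laurentBaseChange K f.2⟩ :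
      laurentBaseChange K F₁) : LaurentSeries K) = coeffEmb K ((σ₀ f : F₁) : LaurentSeries ℚ) :=
  congrArg Subtype.val (lbcHom_emb K σ₀ f)

theorem lbcHom_id : lbcHom K (RingHom.id F₀) = AlgHom.id K (laurentBaseChange K F₀) :=
  algHom_ext_emb K fun f => by rw [lbcHom_emb]; rfl

theorem lbcHom_comp (τ₀ : F₁ →+* F₂) (σ₀ : F₀ →+* F₁) :
    lbcHom K (τ₀.comp σ₀) = (lbcHom K τ₀).comp (lbcHom K σ₀) :=
  algHom_ext_emb K fun f => by
    rw [lbcHom_emb, AlgHom.comp_apply, lbcHom_emb, lbcHom_emb]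
    rfl

/-- **The base change of an isomorphism.** -/
noncomputable def lbcRingEquiv (σ₀ : F₀ ≃+* F₁) :
    laurentBaseChange K F₀ ≃ₐ[K] laurentBaseChange K F₁ :=
  AlgEquiv.ofAlgHom (lbcHom K (σ₀ : F₀ →+* F₁)) (lbcHom K (σ₀.symm : F₁ →+* F₀))
    (by
      rw [← lbcHom_comp, ← lbcHom_id]
      congr 1
      exact RingHom.ext fun x => σ₀.apply_symm_apply x)
    (by
      rw [← lbcHom_comp, ← lbcHom_id]
      congr 1
      exact RingHom.ext fun x => σ₀.symm_apply_apply x)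

theorem lbcRingEquiv_emb (σ₀ : F₀ ≃+* F₁) (f : F₀) :
    lbcRingEquiv K σ₀ (emb K F₀ f) = emb K F₁ (σ₀ f) :=
  lbcHom_emb K (σ₀ : F₀ →+* F₁) f

/-- **The base change of a `ℚ`-algebra isomorphism** (diamond operators). -/
noncomputable def lbcEquiv (σ₀ : F₀ ≃ₐ[ℚ] F₁) :
    laurentBaseChange K F₀ ≃ₐ[K] laurentBaseChange K F₁ :=
  lbcRingEquiv K (σ₀ : F₀ ≃+* F₁)

theorem lbcEquiv_emb (σ₀ : F₀ ≃ₐ[ℚ] F₁) (f : F₀) :
    lbcEquiv K σ₀ (emb K F₀ f) = emb K F₁ (σ₀ f) :=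
  lbcRingEquiv_emb K (σ₀ : F₀ ≃+* F₁) f

/-- coerced form of the value lemma -/
theorem coe_lbcEquiv_emb (σ₀ : F₀ ≃ₐ[ℚ] F₁) (f : F₀) :
    ((lbcEquiv K σ₀ ⟨coeffEmb K (f : LaurentSeries ℚ), coeffEmb_mem_laurentBaseChange K f.2⟩ :
      laurentBaseChange K F₁) : LaurentSeries K) = coeffEmb K ((σ₀ f : F₁) : LaurentSeries ℚ) :=
  congrArg Subtype.val (lbcEquiv_emb K σ₀ f)

/-- extensionality for isomorphisms -/
theorem algEquiv_ext_emb {φ₁ φ₂ : laurentBaseChange K F₀ ≃ₐ[K] laurentBaseChange K F₁}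
    (h : ∀ f : F₀, φ₁ (emb K F₀ f) = φ₂ (emb K F₀ f)) : φ₁ = φ₂ := by
  have : (φ₁ : laurentBaseChange K F₀ →ₐ[K] laurentBaseChange K F₁) = φ₂ :=
    algHom_ext_emb K h
  exact AlgEquiv.ext fun x => DFunLike.congr_fun this x

theorem lbcEquiv_refl : lbcEquiv K (AlgEquiv.refl : F₀ ≃ₐ[ℚ] F₀) = AlgEquiv.refl :=
  algEquiv_ext_emb K fun f => by rw [lbcEquiv_emb]; rfl

theorem lbcEquiv_trans (σ₀ : F₀ ≃ₐ[ℚ] F₁) (τ₀ : F₁ ≃ₐ[ℚ] F₂) :
    lbcEquiv K (σ₀.trans τ₀) = (lbcEquiv K σ₀).trans (lbcEquiv K τ₀) :=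
  algEquiv_ext_emb K fun f => by
    rw [lbcEquiv_emb]
    show _ = lbcEquiv K τ₀ (lbcEquiv K σ₀ (emb K F₀ f))
    rw [lbcEquiv_emb, lbcEquiv_emb]
    rfl

theorem lbcEquiv_symm (σ₀ : F₀ ≃ₐ[ℚ] F₁) : (lbcEquiv K σ₀).symm = lbcEquiv K σ₀.symm :=
  algEquiv_ext_emb K fun f => by
    rw [lbcEquiv_emb, AlgEquiv.symm_apply_eq, lbcEquiv_emb, AlgEquiv.apply_symm_apply]

theorem lbcEquiv_mul (σ₀ τ₀ : F₀ ≃ₐ[ℚ] F₀) :
    lbcEquiv K (σ₀ * τ₀) = lbcEquiv K σ₀ * lbcEquiv K τ₀ :=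
  algEquiv_ext_emb K fun f => by
    rw [lbcEquiv_emb]
    show _ = lbcEquiv K σ₀ (lbcEquiv K τ₀ (emb K F₀ f))
    rw [lbcEquiv_emb, lbcEquiv_emb]
    rfl

/-- the base changes of one rational map to two fields of constants form a rational pair -/
theorem isRationalPair_lbcHom (L k : Type*) [Field L] [Algebra ℚ L] [Field k] [Algebra ℚ k]
    (σ₀ : F₀ →+* F₁) : IsRationalPair (lbcHom L σ₀) (lbcHom k σ₀) :=
  fun f => ⟨σ₀ f, lbcHom_emb L σ₀ f, lbcHom_emb k σ₀ f⟩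

theorem isRationalPair_lbcEquiv (L k : Type*) [Field L] [Algebra ℚ L] [Field k] [Algebra ℚ k]
    (σ₀ : F₀ ≃ₐ[ℚ] F₀) :
    IsRationalPair (lbcEquiv L σ₀ : laurentBaseChange L F₀ →ₐ[L] laurentBaseChange L F₀)
      (lbcEquiv k σ₀ : laurentBaseChange k F₀ →ₐ[k] laurentBaseChange k F₀) :=
  fun f => ⟨σ₀ f, lbcEquiv_emb L σ₀ f, lbcEquiv_emb k σ₀ f⟩

end Fermat.Agent.DS.J1Spec
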