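import Mathlib
import Fermat.Agent.DS.J1Spec.RationalCorr
import Fermat.Agent.DS.X1Hecke.Inst

/-!
# Programme III (J1-PORT, Spec): the specialisation `Pic⁰(X₁(M)/ℂ) → J₁(M)(ℚ̄)`

The `X₁(M)` instance of `exists_specPackage_corr` (twin of main's `Jac.Spec.SpecializationStatement`).

* `isSepVarS_map` : in characteristic zero a finite map of function fields transports separating
  variables (`[F' : K(φ x)] = [F : K(x)] · deg φ`);
* `isRationalPair_alphaGen`, `isRationalPair_betaGen` : the two degeneracy maps over two fields of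
  constants form rational pairs;
* `SpecializationStatementOne M` : there is an additive map
  `red : Pic⁰(K1 M ⊗ ℂ) →+ J₁(M)` which is injective on torsion, commutes with all `T_ℓ`
  (`X1Hecke.heckeOne`, any proofs of the side conditions) and with all rational automorphisms
  (the diamond operators);
* **`specializationStatementOne`** : it holds as soon as `j` is a separating variable of
  `K1Bar M / ℚ̄` (leaf AN-3).
-/

set_option autoImplicit false
set_option linter.unusedSectionVars false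

namespace Fermat.Agent.DS.J1Spec

open ModularCurve AlgebraicCurve IntermediateField Fermat.Agent Fermat.Agent.Val Fermat.Agent.FF
  Fermat.Agent.Jac.RedHecke Fermat.Agent.Hecke Fermat.Agent.DS.X1 Fermat.Agent.DS.X1Hecke

section SepVar

variable {K F F' : Type*} [Field K] [CharZero K] [Field F] [Field F'] [Algebra K F] [Algebra K F']

/-- **Separating variables along a finite map** (characteristic zero). -/
theorem isSepVarS_map {x : F} {n : ℕ} (hx : IsSepVarS K x n) (φ : F →ₐ[K] F')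
    (hfin : FiniteAlong K φ) : IsSepVarS K (φ x) (n * finrankAlong K φ) := by
  have htr : Transcendental K (φ x) := by
    intro h
    exact hx.transcendental ((isAlgebraic_algHom_iff φ φ.injective).mp h)
  have hdeg := Hecke.Deg.finrank_mul_finrankAlong φ x
  rw [hx.finrank_eq] at hdeg
  have hpos : 0 < finrankAlong K φ := by
    letI := algebraAlong φ
    haveI : Module.Finite F F' := hfin
    exact Module.finrank_pos
  have hfd : FiniteDimensional K⟮φ x⟯ F' :=
    Module.finite_of_finrank_pos (by rw [← hdeg]; exact Nat.mul_pos hx.pos hpos)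
  haveI : CharZero K⟮φ x⟯ := charZero_of_injective_algebraMap (algebraMap K K⟮φ x⟯).injective
  haveI : Algebra.IsAlgebraic K⟮φ x⟯ F' := Algebra.IsAlgebraic.of_finite _ _
  exact ⟨⟨htr, hfd, hdeg.symm⟩, Algebra.IsAlgebraic.isSeparable_of_perfectField⟩

/-- In characteristic zero a separating variable in the sense of `X0.IsSepVar` is one in the sense
of `FF.IsSepVarS` (separability is automatic). -/
theorem isSepVarS_of_isSepVar {x : F} {n : ℕ} (hx : X0.IsSepVar K x n) : IsSepVarS K x n := by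
  haveI := hx.finite
  haveI : CharZero K⟮x⟯ := charZero_of_injective_algebraMap (algebraMap K K⟮x⟯).injective
  haveI : Algebra.IsAlgebraic K⟮x⟯ F := Algebra.IsAlgebraic.of_finite _ _
  exact ⟨hx, Algebra.IsAlgebraic.isSeparable_of_perfectField⟩

end SepVar

section Pairs

variable (L : Type*) [Field L] [Algebra ℚ L] (k : Type*) [Field k] [Algebra ℚ k]
  {F₀ F₁ : IntermediateField ℚ (LaurentSeries ℚ)}

/-- the inclusions over two fields of constants form a rational pair -/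
theorem isRationalPair_alphaGen (hle : F₀ ≤ F₁) :
    IsRationalPair (alphaGen L hle) (alphaGen k hle) := fun f =>
  ⟨⟨(f : LaurentSeries ℚ), hle f.2⟩, Subtype.ext (coe_alphaGen L hle _),
    Subtype.ext (coe_alphaGen k hle _)⟩

/-- the maps `q ↦ q ^ ℓ` over two fields of constants form a rational pair -/
theorem isRationalPair_betaGen (ℓ : ℕ) [NeZero ℓ] (hq : ∀ y ∈ F₀, qExpand ℚ ℓ y ∈ F₁) :
    IsRationalPair (betaGen L ℓ hq) (betaGen k ℓ hq) := fun f =>
  ⟨⟨qExpand ℚ ℓ (f : LaurentSeries ℚ), hq _ f.2⟩,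
    Subtype.ext ((coe_betaGen L ℓ hq _).trans (coeffEmb_qExpand L ℓ _).symm),
    Subtype.ext ((coe_betaGen k ℓ hq _).trans (coeffEmb_qExpand k ℓ _).symm)⟩

end Pairs

section One

variable (M : ℕ) [NeZero M]

/-- **The statement of the specialisation node for `X₁(M)`.** -/
def SpecializationStatementOne : Prop :=
  ∃ red : Pic0 ℂ (K1L ℂ M) →+ JOne M,
    (∀ x, (∃ m : ℕ, m ≠ 0 ∧ m • x = 0) → red x = 0 → x = 0) ∧
    (∀ (ℓ : ℕ) [NeZero ℓ] (hC : LevInputs ℂ M ℓ) (hQ : LevInputs (AlgebraicClosure ℚ) M ℓ)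
      (x : Pic0 ℂ (K1L ℂ M)), red (heckeOne hC x) = heckeOne hQ (red x)) ∧
    ∀ (σC : K1L ℂ M ≃ₐ[ℂ] K1L ℂ M)
      (σQ : K1L (AlgebraicClosure ℚ) M ≃ₐ[AlgebraicClosure ℚ] K1L (AlgebraicClosure ℚ) M),
      IsRationalPair (σC : K1L ℂ M →ₐ[ℂ] K1L ℂ M)
        (σQ : K1L (AlgebraicClosure ℚ) M →ₐ[AlgebraicClosure ℚ] K1L (AlgebraicClosure ℚ) M) →
      ∀ x : Pic0 ℂ (K1L ℂ M),
        red (SemilinearAut.ofAlgAut σC • x) = SemilinearAut.ofAlgAut σQ • red x

/-- **The specialisation node for `X₁(M)`**, from leaf AN-3 (`j` is a separating variable of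
`K1Bar M` over `ℚ̄`). -/
theorem specializationStatementOne {n : ℕ}
    (hk : IsSepVarS (AlgebraicClosure ℚ) (jOne (AlgebraicClosure ℚ) M) n) :
    SpecializationStatementOne M := by
  obtain ⟨A, π, hπs, hπ, hA⟩ := exists_specData_complex
  have hk' : IsSepVarS (AlgebraicClosure ℚ)
      (emb (AlgebraicClosure ℚ) (K1 M) ⟨jq, jq_mem_K1 M⟩) n := hk
  have hι : Nonempty (AlgebraicClosure ℚ →+* ℂ) := by
    letI : Algebra ℚ (AlgebraicClosure ℚ) := AlgebraicClosure.instAlgebra ℚ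
    haveI : Algebra.IsAlgebraic ℚ (AlgebraicClosure ℚ) := AlgebraicClosure.isAlgebraic ℚ
    exact ⟨((IsAlgClosed.lift : AlgebraicClosure ℚ →ₐ[ℚ] ℂ) : AlgebraicClosure ℚ →+* ℂ)⟩
  obtain ⟨ι₀⟩ := hι
  obtain ⟨R, -, htors, hcorr, haut⟩ := exists_specPackage_corr ι₀ hπ hπs hA hk'
  refine ⟨Jac.Spec.redPic0 R, htors, ?_, fun σC σQ h x => (haut σC σQ h x).2⟩
  intro ℓ _ hC hQ x
  haveI := hC.princ
  haveI := hQ.princ
  have hk₁ := isSepVarS_map hk (alphaOneBar (AlgebraicClosure ℚ) M ℓ) hQ.finA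
  have e : alphaOneBar (AlgebraicClosure ℚ) M ℓ (jOne (AlgebraicClosure ℚ) M) =
      emb (AlgebraicClosure ℚ) (K1Lev M ℓ) ⟨jq, K1_le_K1Lev M ℓ (jq_mem_K1 M)⟩ :=
    Subtype.ext (coe_alphaOneBar _ M ℓ _)
  rw [e] at hk₁
  have hqq : ∀ y ∈ K1 M, qExpand ℚ ℓ y ∈ K1Lev M ℓ := fun _ hy => qExpand_mem_K1Lev M ℓ hy
  have key := hcorr (K1Lev M ℓ) _ _ hk₁ (betaGen ℂ ℓ hqq) (alphaGen ℂ (K1_le_K1Lev M ℓ))
    (betaGen (AlgebraicClosure ℚ) ℓ hqq) (alphaGen (AlgebraicClosure ℚ) (K1_le_K1Lev M ℓ))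
    (isRationalPair_betaGen ℂ (AlgebraicClosure ℚ) ℓ hqq)
    (isRationalPair_alphaGen ℂ (AlgebraicClosure ℚ) (K1_le_K1Lev M ℓ))
    (isIntegral_of_fin _ hC.finB) (isIntegral_of_fin _ hC.finA)
    (isIntegral_of_fin _ hQ.finB) (isIntegral_of_fin _ hQ.finA)
    (fundamentalIdentityAlong_of_fin _ hC.finB) (fundamentalIdentityAlong_of_fin _ hQ.finB)
    hC.finA (normFormulaAlong_of_fin _ hC.finA) hQ.finA (normFormulaAlong_of_fin _ hQ.finA) x
  exact key

/-- **Rationality of a pair of automorphisms of `K1 M ⊗ ℂ`, `K1 M ⊗ ℚ̄` is checked on the generators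
`j(q^d)` (`d ∣ M`) and `W_a` (`0 < a < M`)**: the diamond operators `W_a ↦ W_{da}`, `j(q^d)` fixed. -/
theorem isRationalPair_K1 (σC : K1L ℂ M →ₐ[ℂ] K1L ℂ M)
    (σQ : K1L (AlgebraicClosure ℚ) M →ₐ[AlgebraicClosure ℚ] K1L (AlgebraicClosure ℚ) M)
    (h : ∀ (s : LaurentSeries ℚ) (hs : s ∈ K1 M), s ∈ divisorExpansions M ∪ weberSet M →
      ∃ g : K1 M, σC (emb ℂ (K1 M) ⟨s, hs⟩) = emb ℂ (K1 M) g ∧
        σQ (emb (AlgebraicClosure ℚ) (K1 M) ⟨s, hs⟩) = emb (AlgebraicClosure ℚ) (K1 M) g) :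
    IsRationalPair σC σQ :=
  isRationalPair_of_generators (S := divisorExpansions M ∪ weberSet M) rfl σC σQ h

/-- The same from `X0.IsSepVar` (the literal output of `DS/X1/K1Deg.isSepVar_K1Bar`;
`jBar1 M = jOne ℚ̄ M` by `rfl`). -/
theorem specializationStatementOne_of_isSepVar {n : ℕ}
    (hk : X0.IsSepVar (AlgebraicClosure ℚ) (jOne (AlgebraicClosure ℚ) M) n) :
    SpecializationStatementOne M :=
  specializationStatementOne M (isSepVarS_of_isSepVar hk)

end One

end Fermat.Agent.DS.J1Spec
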