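import Mathlib
import Fermat.Agent.DS.J1Spec.X1Spec
import Fermat.Agent.DS.J1Spec.LbcFunctor
import Fermat.Agent.DS.X1.K1Places
import Fermat.Agent.DS.Div.WeberCuspInst
import Fermat.Agent.DS.X1Hecke.Fin

/-!
# Programme III (J1-PORT, Spec): the specialisation node for `X₁(M)`, unconditionally

With the analytic input `Div.weberCuspData M` (helper16) and the degree theorem
`X1.isSepVar_K1Bar_dOne` (helper23, helper6), `SpecializationStatementOne M` holds for `3 ≤ M`.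

* `isSepVarS_K1Bar`, `isSepVarS_K1C` : `j` is a separating variable of degree `dOne M` of
  `K1 M ⊗ ℚ̄` and of `K1 M ⊗ ℂ`;
* `levInputsBar`, `levInputsC` : the side conditions of `T_ℓ` over `ℚ̄` and over `ℂ`;
* **`specializationStatementOne_uncond`** : `SpecializationStatementOne M`;
* `exists_specialization_heckeOne` : the same with the concrete `T_ℓ`'s, and with the base changes
  `lbcEquiv K σ₀` of the `ℚ`-automorphisms `σ₀` of `K1 M` (diamond operators).
-/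

set_option autoImplicit false

namespace Fermat.Agent.DS.J1Spec

open ModularCurve AlgebraicCurve Fermat.Agent Fermat.Agent.FF Fermat.Agent.DS.X1
  Fermat.Agent.DS.X1Hecke

variable (M : ℕ) [NeZero M]

/-- `j` is a separating variable of `K1 M ⊗ ℚ̄` of degree `dOne M`. -/
theorem isSepVarS_K1Bar (hM : 3 ≤ M) :
    IsSepVarS (AlgebraicClosure ℚ) (jOne (AlgebraicClosure ℚ) M) (dOne M) :=
  isSepVarS_K1Bar_dOne (Fermat.Agent.DS.Div.weberCuspData M) hM

/-- `j` is a separating variable of `K1 M ⊗ ℂ` of degree `dOne M`. -/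
theorem isSepVarS_K1C (hM : 3 ≤ M) : IsSepVarS ℂ (jOne ℂ M) (dOne M) := by
  have hι : Nonempty (AlgebraicClosure ℚ →+* ℂ) := by
    letI : Algebra ℚ (AlgebraicClosure ℚ) := AlgebraicClosure.instAlgebra ℚ
    haveI : Algebra.IsAlgebraic ℚ (AlgebraicClosure ℚ) := AlgebraicClosure.isAlgebraic ℚ
    exact ⟨((IsAlgClosed.lift : AlgebraicClosure ℚ →ₐ[ℚ] ℂ) : AlgebraicClosure ℚ →+* ℂ)⟩
  obtain ⟨ι₀⟩ := hι
  have hk : IsSepVarS (AlgebraicClosure ℚ)
      (emb (AlgebraicClosure ℚ) (K1 M) ⟨jq, jq_mem_K1 M⟩) (dOne M) := isSepVarS_K1Bar M hM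
  exact isSepVarS_emb ι₀ hk

/-- the side conditions of `T_ℓ` over `ℚ̄` -/
theorem levInputsBar (hM : 3 ≤ M) (ℓ : ℕ) [NeZero ℓ] : LevInputs (AlgebraicClosure ℚ) M ℓ :=
  levInputs_of_isSepVarS (isSepVarS_K1Bar M hM) ℓ

/-- the side conditions of `T_ℓ` over `ℂ` -/
theorem levInputsC (hM : 3 ≤ M) (ℓ : ℕ) [NeZero ℓ] : LevInputs ℂ M ℓ :=
  levInputs_of_isSepVarS (isSepVarS_K1C M hM) ℓ

/-- **The specialisation node for `X₁(M)`, unconditionally.** -/
theorem specializationStatementOne_uncond (hM : 3 ≤ M) : SpecializationStatementOne M :=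
  specializationStatementOne M (isSepVarS_K1Bar M hM)

/-- **Concrete form**: one additive map `red : Pic⁰(K1 M ⊗ ℂ) → J₁(M)(ℚ̄)`, injective on torsion,
commuting with all `T_ℓ` and with the base changes of all `ℚ`-automorphisms of `K1 M`
(the diamond operators). -/
theorem exists_specialization_heckeOne (hM : 3 ≤ M) :
    ∃ red : Pic0 ℂ (K1L ℂ M) →+ JOne M,
      (∀ x, (∃ m : ℕ, m ≠ 0 ∧ m • x = 0) → red x = 0 → x = 0) ∧
      (∀ (ℓ : ℕ) [NeZero ℓ] (x : Pic0 ℂ (K1L ℂ M)),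
        red (heckeOne (levInputsC M hM ℓ) x) = heckeOne (levInputsBar M hM ℓ) (red x)) ∧
      ∀ (σ₀ : K1 M ≃ₐ[ℚ] K1 M) (x : Pic0 ℂ (K1L ℂ M)),
        red (SemilinearAut.ofAlgAut (lbcEquiv ℂ σ₀) • x) =
          SemilinearAut.ofAlgAut (lbcEquiv (AlgebraicClosure ℚ) σ₀) • red x := by
  obtain ⟨red, h1, h2, h3⟩ := specializationStatementOne_uncond M hM
  exact ⟨red, h1, fun ℓ _ x => h2 ℓ _ _ x,
    fun σ₀ x => h3 _ _ (isRationalPair_lbcEquiv ℂ (AlgebraicClosure ℚ) σ₀) x⟩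

end Fermat.Agent.DS.J1Spec
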