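import Mathlib
import Fermat.Agent.DS.J1Spec.X1SpecFinal
import Fermat.Agent.DS.X1Hecke.Data

/-!
# Programme III (J1-PORT, Spec): the two `red`-compatibilities of the kernel `KKum`

For `I : HeckeInputsOne M` whose diamonds are base changes of `ℚ`-automorphisms `δ d` of `K1 M`
(`I.dia d = lbcEquiv ℚ̄ (δ d)`; e.g. `I.dia = diaBar D`, `δ = diamondQ D`), the specialisation map
`red : Pic⁰(K1 M ⊗ ℂ) → J₁(M)(ℚ̄)` of `exists_specialization_heckeOne` satisfies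

* `red (TbOne M hM p x) = I.T p (red x)`     (`TbOne` = the Hecke correspondence `α_* β^*` over `ℂ`),
* `red (DbOne M (δ d) x) = I.D d (red x)`    (`DbOne σ₀` = the action of `lbcEquiv ℂ σ₀` on `Pic⁰`),

in the literal shapes `hSp`, `hSd` of `Kum.exists_kummerMap_one`.
-/

set_option autoImplicit false

noncomputable section

namespace Fermat.Agent.DS.J1Spec

open ModularCurve AlgebraicCurve Fermat.Agent Fermat.Agent.FF Fermat.Agent.DS.X1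
  Fermat.Agent.DS.X1Hecke Fermat.Agent.Red

variable (M : ℕ) [NeZero M]

/-- the Hecke correspondence `T_p = α_* β^*` on `Pic⁰` of `X₁(M)` over `ℂ` -/
def TbOne (hM : 3 ≤ M) (p : Nat.Primes) : Pic0 ℂ (K1L ℂ M) →+ Pic0 ℂ (K1L ℂ M) :=
  haveI : NeZero (p : ℕ) := ⟨p.2.ne_zero⟩
  heckeOne (levInputsC M hM (p : ℕ))

/-- the action on `Pic⁰` of `X₁(M)` over `ℂ` of the base change of a `ℚ`-automorphism of `K1 M` -/
def DbOne (σ₀ : K1 M ≃ₐ[ℚ] K1 M) : Pic0 ℂ (K1L ℂ M) →+ Pic0 ℂ (K1L ℂ M) :=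
  DistribSMul.toAddMonoidHom (Pic0 ℂ (K1L ℂ M)) (SemilinearAut.ofAlgAut (lbcEquiv ℂ σ₀))

theorem TbOne_apply (hM : 3 ≤ M) (p : Nat.Primes) (x : Pic0 ℂ (K1L ℂ M)) :
    TbOne M hM p x =
      (haveI : NeZero (p : ℕ) := ⟨p.2.ne_zero⟩; heckeOne (levInputsC M hM (p : ℕ)) x) := rfl

theorem DbOne_apply (σ₀ : K1 M ≃ₐ[ℚ] K1 M) (x : Pic0 ℂ (K1L ℂ M)) :
    DbOne M σ₀ x = SemilinearAut.ofAlgAut (lbcEquiv ℂ σ₀) • x := rfl

/-- **The `red`-compatibilities of `KKum`**: one `red`, injective on torsion, with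
`red ∘ TbOne p = I.T p ∘ red` and `red ∘ DbOne (δ d) = I.D d ∘ red`. -/
theorem exists_red_compat (hM : 3 ≤ M) (I : HeckeInputsOne M)
    (δ : (ZMod M)ˣ → (K1 M ≃ₐ[ℚ] K1 M))
    (hδ : ∀ d, I.dia d = lbcEquiv (AlgebraicClosure ℚ) (δ d)) :
    ∃ red : Pic0 ℂ (K1L ℂ M) →+ JOne M,
      (∀ x, (∃ m : ℕ, m ≠ 0 ∧ m • x = 0) → red x = 0 → x = 0) ∧
      (∀ (p : {p : Nat.Primes // ¬ (p : ℕ) ∣ M}) (x : Pic0 ℂ (K1L ℂ M)),
        red (TbOne M hM p.1 x) = I.T p.1 (red x)) ∧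
      (∀ (d : (ZMod M)ˣ) (x : Pic0 ℂ (K1L ℂ M)), red (DbOne M (δ d) x) = I.D d (red x)) ∧
      ∀ (d : (ZMod M)ˣ) (x : Pic0 ℂ (K1L ℂ M)), red (DbOne M (δ d⁻¹) x) = I.D d⁻¹ (red x) := by
  obtain ⟨red, h1, h2, h3⟩ := exists_specialization_heckeOne M hM
  have hD : ∀ (d : (ZMod M)ˣ) (x : Pic0 ℂ (K1L ℂ M)), red (DbOne M (δ d) x) = I.D d (red x) := by
    intro d x
    rw [DbOne_apply, h3, HeckeInputsOne.D_apply, hδ d]
  refine ⟨red, h1, fun p x => ?_, hD, fun d x => hD d⁻¹ x⟩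
  haveI : NeZero ((p.1 : Nat.Primes) : ℕ) := ⟨p.1.2.ne_zero⟩
  rw [TbOne_apply, h2, HeckeInputsOne.T_apply]

end Fermat.Agent.DS.J1Spec
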